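import Fermat.Agent.S19.Defs

/-!
# S19 / A3: a subalgebra of functions on a finite abelian group which is stable under
"comultiplication" is a Hopf algebra, and its points are the points of the group.

General `R` (commutative ring), `L` (field, `R`-algebra with `R → L` injective), `G` finite abelian.
`H ⊆ Fun(G, L)` an `R`-subalgebra with a finite `R`-basis which is `L`-linearly independent.

Sketch.  `ι₂ : H ⊗ H → Fun(G × G, L)`, `h ⊗ h' ↦ h(x) h'(y)` and `ι₃` are injective algebra maps
(basis + independence of the products `b_i(x) b_j(y)` over `L`).  `Δ h :=` the unique preimage of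
`(x, y) ↦ h (x + y)`, `ε h := h 0 ∈ R`, `S h := h ∘ neg` (`h ∘ neg ∈ H` because `-x = (N-1) x`, and
`x ↦ h (n x) ∈ H` by induction on `n` using `hcomul`).  All identities are checked after applying
`ι₂`, `ι₃` (`Bialgebra.ofAlgHom`).  Points: the evaluations `ev_x` are pairwise distinct (`hsep`),
there are at most `rank H ≤ |G|` algebra maps `H → L` (Dedekind independence of characters:
`linearIndependent_monoidHom`), so every point is an evaluation.  `ev_x * ev_y = ev_{x+y}` by
`AlgHom.convMul_apply`.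
-/

set_option autoImplicit false

namespace Fermat.Agent.S19

namespace FunHopf

open scoped TensorProduct

variable {R L : Type} [CommRing R] [Field L] [Algebra R L]

/-- pull back of functions along a map, as an algebra homomorphism. -/
def pull {X Z : Type} (g : Z → X) : (X → L) →ₐ[R] (Z → L) :=
  AlgHom.pi (fun z => Pi.evalAlgHom R (fun _ => L) (g z))

@[simp] theorem pull_apply {X Z : Type} (g : Z → X) (f : X → L) (z : Z) :
    pull (R := R) g f z = f (g z) := rfl

/-- exterior product of two algebra maps into algebras of functions. -/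
noncomputable def boxMap {A B X Y : Type} [Semiring A] [Semiring B] [Algebra R A] [Algebra R B]
    (φ : A →ₐ[R] (X → L)) (ψ : B →ₐ[R] (Y → L)) : A ⊗[R] B →ₐ[R] (X × Y → L) :=
  Algebra.TensorProduct.productMap ((pull Prod.fst).comp φ) ((pull Prod.snd).comp ψ)

@[simp] theorem boxMap_tmul {A B X Y : Type} [Semiring A] [Semiring B] [Algebra R A] [Algebra R B]
    (φ : A →ₐ[R] (X → L)) (ψ : B →ₐ[R] (Y → L)) (a : A) (b : B) (z : X × Y) :
    boxMap φ ψ (a ⊗ₜ b) z = φ a z.1 * ψ b z.2 := rfl

theorem linearIndependent_box {ι κ X Y : Type} [Fintype ι] [Fintype κ] (u : ι → X → L)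
    (v : κ → Y → L) (hu : LinearIndependent L u) (hv : LinearIndependent L v) :
    LinearIndependent L (fun p : ι × κ => fun z : X × Y => u p.1 z.1 * v p.2 z.2) := by
  rw [Fintype.linearIndependent_iff] at hu hv ⊢
  intro g hg
  have key : ∀ (y : Y) (i : ι), ∑ j, g (i, j) * v j y = 0 := by
    intro y
    apply hu
    funext x
    have := congrFun hg (x, y)
    simp only [Finset.sum_apply, Pi.smul_apply, smul_eq_mul, Pi.zero_apply] at this ⊢
    rw [← this, Fintype.sum_prod_type]
    refine Finset.sum_congr rfl fun i _ => ?_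
    rw [Finset.sum_mul]
    refine Finset.sum_congr rfl fun j _ => ?_
    ring
  rintro ⟨i, j⟩
  refine hv (fun j => g (i, j)) ?_ j
  funext y
  simpa using key y i

theorem injective_of_basis {A V ι : Type} [AddCommMonoid A] [Module R A]
    [AddCommGroup V] [Module R V] [Module L V] [IsScalarTower R L V]
    (hinj : Function.Injective (algebraMap R L)) (b : Module.Basis ι R A) (f : A →ₗ[R] V)
    (h : LinearIndependent L (fun i => f (b i))) : Function.Injective f := by
  have h' : LinearIndependent R (fun i => f (b i)) := by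
    refine h.restrict_scalars ?_
    intro r s hrs
    apply hinj
    simpa [Algebra.smul_def] using hrs
  intro x y hxy
  rw [← b.linearCombination_repr x, ← b.linearCombination_repr y,
    Finsupp.apply_linearCombination, Finsupp.apply_linearCombination] at hxy
  exact b.repr.injective (h' hxy)

theorem boxMap_indep {A B X Y ι κ : Type} [Fintype ι] [Fintype κ] [Semiring A] [Semiring B]
    [Algebra R A] [Algebra R B]
    (φ : A →ₐ[R] (X → L)) (ψ : B →ₐ[R] (Y → L)) (bA : Module.Basis ι R A)
    (bB : Module.Basis κ R B) (hA : LinearIndependent L (fun i => φ (bA i)))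
    (hB : LinearIndependent L (fun j => ψ (bB j))) :
    LinearIndependent L (fun p => boxMap φ ψ ((bA.tensorProduct bB) p)) := by
  have := linearIndependent_box _ _ hA hB
  convert this using 2 with p
  funext z
  rw [Module.Basis.tensorProduct_apply', boxMap_tmul]

theorem boxMap_injective {A B X Y ι κ : Type} [Fintype ι] [Fintype κ] [Semiring A] [Semiring B]
    [Algebra R A] [Algebra R B] (hinj : Function.Injective (algebraMap R L))
    (φ : A →ₐ[R] (X → L)) (ψ : B →ₐ[R] (Y → L)) (bA : Module.Basis ι R A)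
    (bB : Module.Basis κ R B) (hA : LinearIndependent L (fun i => φ (bA i)))
    (hB : LinearIndependent L (fun j => ψ (bB j))) :
    Function.Injective (boxMap φ ψ) :=
  injective_of_basis hinj (bA.tensorProduct bB) (boxMap φ ψ).toLinearMap
    (boxMap_indep φ ψ bA bB hA hB)


/-- the data of the theorem. -/
structure Dat (R L G : Type) [CommRing R] [Field L] [Algebra R L] [AddCommGroup G] where
  hinj : Function.Injective (algebraMap R L)
  H : Subalgebra R (G → L)
  n : ℕ
  b : Module.Basis (Fin n) R H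
  hb : LinearIndependent L (fun i => ((b i : H) : G → L))
  hsep : ∀ x y : G, (∀ h ∈ H, h x = h y) → x = y
  hcounit : ∀ h ∈ H, ∃ r : R, h 0 = algebraMap R L r
  hcomul : ∀ h ∈ H, ∃ (n : ℕ) (a c : Fin n → G → L), (∀ i, a i ∈ H) ∧ (∀ i, c i ∈ H) ∧
      ∀ x y : G, h (x + y) = ∑ i, a i x * c i y

namespace Dat

variable {G : Type} [AddCommGroup G] (D : Dat R L G)

/-- the inclusion. -/
def φ : D.H →ₐ[R] (G → L) := D.H.val

@[simp] theorem φ_apply (h : D.H) : D.φ h = (h : G → L) := rfl

/-- `h ⊗ h' ↦ h(x) h'(y)`. -/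
noncomputable def ι₂ : D.H ⊗[R] D.H →ₐ[R] (G × G → L) := boxMap D.φ D.φ

theorem ι₂_tmul (a c : D.H) (z : G × G) : D.ι₂ (a ⊗ₜ c) z = (a : G → L) z.1 * (c : G → L) z.2 := rfl

theorem ι₂_indep : LinearIndependent L (fun p => D.ι₂ ((D.b.tensorProduct D.b) p)) :=
  boxMap_indep D.φ D.φ D.b D.b D.hb D.hb

theorem ι₂_injective : Function.Injective D.ι₂ :=
  boxMap_injective D.hinj D.φ D.φ D.b D.b D.hb D.hb

/-- `h ⊗ (h' ⊗ h'') ↦ h(x) h'(y) h''(z)`. -/
noncomputable def ι₃ : D.H ⊗[R] (D.H ⊗[R] D.H) →ₐ[R] (G × (G × G) → L) := boxMap D.φ D.ι₂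

theorem ι₃_tmul (a : D.H) (t : D.H ⊗[R] D.H) (z : G × (G × G)) :
    D.ι₃ (a ⊗ₜ t) z = (a : G → L) z.1 * D.ι₂ t z.2 := rfl

theorem ι₃_injective : Function.Injective D.ι₃ :=
  boxMap_injective D.hinj D.φ D.ι₂ D.b (D.b.tensorProduct D.b) D.hb D.ι₂_indep

/-- `h ↦ ((x, y) ↦ h (x + y))`. -/
def addPull : D.H →ₐ[R] (G × G → L) := (pull (fun p : G × G => p.1 + p.2)).comp D.φ

theorem addPull_mem_range (h : D.H) : D.addPull h ∈ D.ι₂.range := by
  obtain ⟨n, a, c, ha, hc, hac⟩ := D.hcomul h h.2
  rw [AlgHom.mem_range]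
  refine ⟨∑ i, (⟨a i, ha i⟩ : D.H) ⊗ₜ[R] (⟨c i, hc i⟩ : D.H), ?_⟩
  funext z
  rw [map_sum, Finset.sum_apply]
  simp only [ι₂_tmul]
  exact (hac z.1 z.2).symm

/-- the comultiplication. -/
noncomputable def Δ : D.H →ₐ[R] D.H ⊗[R] D.H :=
  ((AlgEquiv.ofInjective D.ι₂ D.ι₂_injective).symm : D.ι₂.range →ₐ[R] D.H ⊗[R] D.H).comp
    (D.addPull.codRestrict D.ι₂.range D.addPull_mem_range)

theorem ι₂_Δ (h : D.H) (z : G × G) : D.ι₂ (D.Δ h) z = (h : G → L) (z.1 + z.2) := by
  have h1 : D.ι₂ (D.Δ h) = D.addPull h := by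
    have := (AlgEquiv.ofInjective D.ι₂ D.ι₂_injective).apply_symm_apply
      (D.addPull.codRestrict D.ι₂.range D.addPull_mem_range h)
    exact congrArg Subtype.val this
  rw [h1]
  rfl

/-- evaluation at `0`. -/
def ev0 : D.H →ₐ[R] L := (Pi.evalAlgHom R (fun _ : G => L) 0).comp D.φ

theorem ev0_mem_range (h : D.H) : D.ev0 h ∈ (Algebra.ofId R L).range := by
  obtain ⟨r, hr⟩ := D.hcounit h h.2
  exact ⟨r, hr.symm⟩

/-- the counit. -/
noncomputable def ε : D.H →ₐ[R] R :=
  ((AlgEquiv.ofInjective (Algebra.ofId R L) D.hinj).symm : (Algebra.ofId R L).range →ₐ[R] R).comp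
    (D.ev0.codRestrict (Algebra.ofId R L).range D.ev0_mem_range)

theorem algebraMap_ε (h : D.H) : algebraMap R L (D.ε h) = (h : G → L) 0 := by
  have := (AlgEquiv.ofInjective (Algebra.ofId R L) D.hinj).apply_symm_apply
      (D.ev0.codRestrict (Algebra.ofId R L).range D.ev0_mem_range h)
  exact congrArg Subtype.val this

theorem ι₃_map_id_Δ (t : D.H ⊗[R] D.H) (x y z : G) :
    D.ι₃ (Algebra.TensorProduct.map (AlgHom.id R D.H) D.Δ t) (x, (y, z)) = D.ι₂ t (x, y + z) := by
  induction t using TensorProduct.induction_on with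
  | zero => simp
  | tmul a c =>
    rw [Algebra.TensorProduct.map_tmul, ι₃_tmul, ι₂_Δ, ι₂_tmul]
    rfl
  | add s t hs ht => simp only [map_add, Pi.add_apply, hs, ht]

theorem ι₃_assoc_tmul (s : D.H ⊗[R] D.H) (c : D.H) (x y z : G) :
    D.ι₃ (Algebra.TensorProduct.assoc R R R D.H D.H D.H (s ⊗ₜ c)) (x, (y, z)) =
      D.ι₂ s (x, y) * (c : G → L) z := by
  induction s using TensorProduct.induction_on with
  | zero => simp
  | tmul a a' =>
    rw [Algebra.TensorProduct.assoc_tmul, ι₃_tmul, ι₂_tmul, ι₂_tmul]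
    simp only [mul_assoc]
  | add s t hs ht => simp only [TensorProduct.add_tmul, map_add, Pi.add_apply, hs, ht, add_mul]

theorem ι₃_assoc_map_Δ_id (t : D.H ⊗[R] D.H) (x y z : G) :
    D.ι₃ (Algebra.TensorProduct.assoc R R R D.H D.H D.H
      (Algebra.TensorProduct.map D.Δ (AlgHom.id R D.H) t)) (x, (y, z)) = D.ι₂ t (x + y, z) := by
  induction t using TensorProduct.induction_on with
  | zero => simp
  | tmul a c =>
    rw [Algebra.TensorProduct.map_tmul, ι₃_assoc_tmul, ι₂_Δ, ι₂_tmul]
    rfl
  | add s t hs ht => simp only [map_add, Pi.add_apply, hs, ht]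

theorem coassoc : (Algebra.TensorProduct.assoc R R R D.H D.H D.H).toAlgHom.comp
      ((Algebra.TensorProduct.map D.Δ (.id R D.H)).comp D.Δ)
      = (Algebra.TensorProduct.map (.id R D.H) D.Δ).comp D.Δ := by
  ext h
  apply D.ι₃_injective
  funext ⟨x, y, z⟩
  simp only [AlgHom.comp_apply]
  rw [ι₃_map_id_Δ, ι₂_Δ]
  have := D.ι₃_assoc_map_Δ_id (D.Δ h) x y z
  rw [ι₂_Δ] at this
  simp only at this ⊢
  rw [← add_assoc, ← this]
  rfl


theorem lid_map_ε_id (t : D.H ⊗[R] D.H) (y : G) :
    ((Algebra.TensorProduct.lid R D.H (Algebra.TensorProduct.map D.ε (AlgHom.id R D.H) t) : D.H) :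
      G → L) y = D.ι₂ t (0, y) := by
  induction t using TensorProduct.induction_on with
  | zero => simp
  | tmul a c =>
    rw [Algebra.TensorProduct.map_tmul, Algebra.TensorProduct.lid_tmul, ι₂_tmul, ← algebraMap_ε]
    simp [Algebra.smul_def]
  | add s t hs ht =>
    simp only [map_add, Pi.add_apply, Subalgebra.coe_add, hs, ht]

theorem rid_map_id_ε (t : D.H ⊗[R] D.H) (x : G) :
    ((Algebra.TensorProduct.rid R R D.H (Algebra.TensorProduct.map (AlgHom.id R D.H) D.ε t) : D.H) :
      G → L) x = D.ι₂ t (x, 0) := by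
  induction t using TensorProduct.induction_on with
  | zero => simp
  | tmul a c =>
    rw [Algebra.TensorProduct.map_tmul, Algebra.TensorProduct.rid_tmul, ι₂_tmul, ← algebraMap_ε]
    simp [Algebra.smul_def, mul_comm]
  | add s t hs ht =>
    simp only [map_add, Pi.add_apply, Subalgebra.coe_add, hs, ht]

theorem rTensor_counit : (Algebra.TensorProduct.map D.ε (.id R D.H)).comp D.Δ
      = (Algebra.TensorProduct.lid R D.H).symm := by
  ext h
  apply (Algebra.TensorProduct.lid R D.H).injective
  simp only [AlgHom.comp_apply]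
  apply Subtype.ext
  funext y
  rw [lid_map_ε_id, ι₂_Δ]
  simp

theorem lTensor_counit : (Algebra.TensorProduct.map (.id R D.H) D.ε).comp D.Δ
      = (Algebra.TensorProduct.rid R R D.H).symm := by
  ext h
  apply (Algebra.TensorProduct.rid R R D.H).injective
  simp only [AlgHom.comp_apply]
  apply Subtype.ext
  funext y
  rw [rid_map_id_ε, ι₂_Δ]
  simp

/-- the bialgebra structure. -/
@[reducible] noncomputable def bialg : Bialgebra R D.H :=
  Bialgebra.ofAlgHom D.Δ D.ε D.coassoc D.rTensor_counit D.lTensor_counit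

theorem comp_nsmul_mem (k : ℕ) : ∀ h ∈ D.H, (fun x : G => h (k • x)) ∈ D.H := by
  induction k with
  | zero =>
    intro h hh
    obtain ⟨r, hr⟩ := D.hcounit h hh
    have : (fun x : G => h (0 • x)) = algebraMap R (G → L) r := by
      funext x
      simp [hr]
    rw [this]
    exact D.H.algebraMap_mem r
  | succ k ih =>
    intro h hh
    obtain ⟨n, a, c, ha, hc, hac⟩ := D.hcomul h hh
    have : (fun x : G => h ((k + 1) • x)) = ∑ i, (fun x : G => a i (k • x)) * c i := by
      funext x
      rw [succ_nsmul, hac, Finset.sum_apply]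
      rfl
    rw [this]
    exact D.H.sum_mem fun i _ => D.H.mul_mem (ih _ (ha i)) (hc i)

theorem comp_neg_mem [Finite G] (h : G → L) (hh : h ∈ D.H) : (fun x : G => h (-x)) ∈ D.H := by
  have h1 := D.comp_nsmul_mem (Nat.card G - 1) h hh
  have h2 : ∀ x : G, (Nat.card G - 1) • x = -x := by
    intro x
    have hpos : 0 < Nat.card G := Nat.card_pos
    have h3 : (Nat.card G - 1 + 1) • x = 0 := by
      rw [Nat.sub_add_cancel hpos]
      exact card_nsmul_eq_zero'
    rw [succ_nsmul] at h3
    exact eq_neg_of_add_eq_zero_left h3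
  simpa only [h2] using h1

/-- the antipode. -/
def S [Finite G] : D.H →ₗ[R] D.H where
  toFun h := ⟨fun x => (h : G → L) (-x), D.comp_neg_mem h h.2⟩
  map_add' _ _ := rfl
  map_smul' _ _ := rfl

theorem S_apply [Finite G] (h : D.H) (x : G) : ((D.S h : D.H) : G → L) x = (h : G → L) (-x) := rfl

theorem mul'_rTensor_S [Finite G] (t : D.H ⊗[R] D.H) (x : G) :
    ((LinearMap.mul' R D.H (D.S.rTensor D.H t) : D.H) : G → L) x = D.ι₂ t (-x, x) := by
  induction t using TensorProduct.induction_on with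
  | zero => simp
  | tmul a c =>
    rw [LinearMap.rTensor_tmul, LinearMap.mul'_apply, ι₂_tmul]
    rfl
  | add s t hs ht =>
    simp only [map_add, Pi.add_apply, Subalgebra.coe_add, hs, ht]

theorem mul'_lTensor_S [Finite G] (t : D.H ⊗[R] D.H) (x : G) :
    ((LinearMap.mul' R D.H (D.S.lTensor D.H t) : D.H) : G → L) x = D.ι₂ t (x, -x) := by
  induction t using TensorProduct.induction_on with
  | zero => simp
  | tmul a c =>
    rw [LinearMap.lTensor_tmul, LinearMap.mul'_apply, ι₂_tmul]
    rfl
  | add s t hs ht =>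
    simp only [map_add, Pi.add_apply, Subalgebra.coe_add, hs, ht]

/-- the Hopf algebra structure. -/
@[reducible] noncomputable def hopf [Finite G] : HopfAlgebra R D.H :=
  { D.bialg with
    antipode := D.S
    mul_antipode_rTensor_comul := by
      ext h x
      have h1 := D.mul'_rTensor_S (D.Δ h) x
      rw [ι₂_Δ] at h1
      simp only [neg_add_cancel] at h1
      rw [← algebraMap_ε] at h1
      exact h1
    mul_antipode_lTensor_comul := by
      ext h x
      have h1 := D.mul'_lTensor_S (D.Δ h) x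
      rw [ι₂_Δ] at h1
      simp only [add_neg_cancel] at h1
      rw [← algebraMap_ε] at h1
      exact h1 }

theorem ι₂_comm (t : D.H ⊗[R] D.H) (x y : G) :
    D.ι₂ (TensorProduct.comm R D.H D.H t) (x, y) = D.ι₂ t (y, x) := by
  induction t using TensorProduct.induction_on with
  | zero => simp
  | tmul a c =>
    rw [TensorProduct.comm_tmul, ι₂_tmul, ι₂_tmul, mul_comm]
  | add s t hs ht =>
    simp only [map_add, Pi.add_apply, hs, ht]

theorem comm_Δ (h : D.H) : TensorProduct.comm R D.H D.H (D.Δ h) = D.Δ h := by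
  apply D.ι₂_injective
  funext ⟨x, y⟩
  rw [ι₂_comm, ι₂_Δ, ι₂_Δ, add_comm]



/-- evaluation at a point. -/
def ev (x : G) : D.H →ₐ[R] L := (Pi.evalAlgHom R (fun _ : G => L) x).comp D.φ

@[simp] theorem ev_apply (x : G) (h : D.H) : D.ev x h = (h : G → L) x := rfl

theorem ev_injective : Function.Injective D.ev := by
  intro x y hxy
  apply D.hsep
  intro h hh
  exact congrArg (fun f : D.H →ₐ[R] L => f ⟨h, hh⟩) hxy

theorem algHom_indep :
    LinearIndependent L (fun f : D.H →ₐ[R] L => fun i : Fin D.n => f (D.b i)) := by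
  have h0 : LinearIndependent L (fun f : D.H →ₐ[R] L => (f : D.H → L)) := by
    have h1 := linearIndependent_monoidHom D.H L
    have h2 : Function.Injective (fun f : D.H →ₐ[R] L => ((f : D.H →+* L) : D.H →* L)) := by
      intro f g hfg
      ext h
      exact congrArg (fun u : D.H →* L => u h) hfg
    exact h1.comp _ h2
  rw [linearIndependent_iff'] at h0 ⊢
  intro s g hg
  apply h0 s g
  funext h
  simp only [Finset.sum_apply, Pi.smul_apply, smul_eq_mul, Pi.zero_apply]
  have h3 : ∀ f : D.H →ₐ[R] L, f h = ∑ i, algebraMap R L (D.b.repr h i) * f (D.b i) := by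
    intro f
    conv_lhs => rw [← D.b.sum_repr h]
    rw [map_sum]
    refine Finset.sum_congr rfl fun i _ => ?_
    rw [map_smul, Algebra.smul_def]
  have h4 : ∀ i, ∑ f ∈ s, g f * f (D.b i) = 0 := by
    intro i
    have := congrFun hg i
    simpa using this
  calc ∑ f ∈ s, g f * f h = ∑ f ∈ s, ∑ i, algebraMap R L (D.b.repr h i) * (g f * f (D.b i)) := by
        refine Finset.sum_congr rfl fun f _ => ?_
        rw [h3 f, Finset.mul_sum]
        refine Finset.sum_congr rfl fun i _ => ?_
        ring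
    _ = ∑ i, algebraMap R L (D.b.repr h i) * ∑ f ∈ s, g f * f (D.b i) := by
        rw [Finset.sum_comm]
        refine Finset.sum_congr rfl fun i _ => ?_
        rw [Finset.mul_sum]
    _ = 0 := by simp [h4]

theorem finite_algHom : Finite (D.H →ₐ[R] L) := D.algHom_indep.finite

theorem card_algHom_le : Nat.card (D.H →ₐ[R] L) ≤ D.n := by
  have := D.finite_algHom
  have := Fintype.ofFinite (D.H →ₐ[R] L)
  have h := D.algHom_indep.fintype_card_le_finrank
  rwa [Module.finrank_fin_fun, ← Nat.card_eq_fintype_card] at h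

theorem n_le_card [Finite G] : D.n ≤ Nat.card G := by
  have := Fintype.ofFinite G
  have h := D.hb.fintype_card_le_finrank
  rwa [Module.finrank_fintype_fun_eq_card, Fintype.card_fin, ← Nat.card_eq_fintype_card] at h

theorem ev_bijective [Finite G] : Function.Bijective D.ev := by
  have := D.finite_algHom
  exact D.ev_injective.bijective_of_nat_card_le (D.card_algHom_le.trans D.n_le_card)

theorem lift_ev (x y : G) (t : D.H ⊗[R] D.H) :
    Algebra.TensorProduct.lift (D.ev x) (D.ev y) (fun _ _ => .all ..) t = D.ι₂ t (x, y) := by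
  induction t using TensorProduct.induction_on with
  | zero => simp
  | tmul a c =>
    rw [Algebra.TensorProduct.lift_tmul, ι₂_tmul]
    rfl
  | add s t hs ht =>
    simp only [map_add, Pi.add_apply, hs, ht]


end Dat

end FunHopf

open FunHopf in
theorem exists_hopf_points {R L G : Type} [CommRing R] [Field L] [Algebra R L] [AddCommGroup G]
    [Finite G] (hinj : Function.Injective (algebraMap R L)) (H : Subalgebra R (G → L))
    {n : ℕ} (b : Module.Basis (Fin n) R H)
    (hb : LinearIndependent L (fun i => ((b i : H) : G → L)))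
    (hsep : ∀ x y : G, (∀ h ∈ H, h x = h y) → x = y)
    (hcounit : ∀ h ∈ H, ∃ r : R, h 0 = algebraMap R L r)
    (hcomul : ∀ h ∈ H, ∃ (n : ℕ) (a c : Fin n → G → L), (∀ i, a i ∈ H) ∧ (∀ i, c i ∈ H) ∧
      ∀ x y : G, h (x + y) = ∑ i, a i x * c i y) :
    ∃ (H' : Type) (_ : CommRing H') (_ : HopfAlgebra R H'),
      Module.Finite R H' ∧ Module.Free R H' ∧ Coalgebra.IsCocomm R H' ∧
      ∃ (e : WithConv (H' →ₐ[R] L) ≃ G) (φ : H' → G → L),
        (∀ f g, e (f * g) = e f + e g) ∧ (∀ h', φ h' ∈ H) ∧ (∀ h ∈ H, ∃ h', φ h' = h) ∧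
        ∀ (f : WithConv (H' →ₐ[R] L)) (h' : H'), f h' = φ h' (e f) := by
  let D : Dat R L G := ⟨hinj, H, n, b, hb, hsep, hcounit, hcomul⟩
  let _ := D.hopf
  refine ⟨D.H, inferInstance, D.hopf, Module.Finite.of_basis D.b, Module.Free.of_basis D.b,
    ⟨?_⟩, ?_⟩
  · ext h
    exact congrArg (fun t => t) (D.comm_Δ h)
  let e0 : G ≃ WithConv (D.H →ₐ[R] L) :=
    (Equiv.ofBijective D.ev D.ev_bijective).trans (WithConv.equiv _).symm
  have he0 : ∀ (x : G) (h : D.H), (e0 x) h = (h : G → L) x := fun x h => rfl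
  have hmul : ∀ x y : G, e0 x * e0 y = e0 (x + y) := by
    intro x y
    apply WithConv.ext
    ext h
    have h1 := AlgHom.convMul_apply (e0 x) (e0 y) h
    have h2 := D.lift_ev x y (D.Δ h)
    rw [Dat.ι₂_Δ] at h2
    exact h1.trans h2
  refine ⟨e0.symm, fun h => (h : G → L), ?_, fun h => h.2, fun h hh => ⟨⟨h, hh⟩, rfl⟩, ?_⟩
  · intro f g
    obtain ⟨x, rfl⟩ := e0.surjective f
    obtain ⟨y, rfl⟩ := e0.surjective g
    rw [hmul]
    simp
  · intro f h
    obtain ⟨x, rfl⟩ := e0.surjective f
    rw [he0]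
    simp

end Fermat.Agent.S19
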