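import Fermat.Agent.S19.Defs

/-!
# S19 / A2: basic facts on `ℤ_(ℓ) = GaloisRep.ratLocalizedAt ℓ ⊆ ℚ`
-/

set_option autoImplicit false

namespace Fermat.Agent.S19

variable (ℓ : ℕ) [Fact ℓ.Prime]

theorem RlBasic_inv_int_mem {m : ℤ} (hm : ¬ (ℓ : ℤ) ∣ m) :
    ((m : ℚ))⁻¹ ∈ GaloisRep.ratLocalizedAt ℓ := by
  change ((m : ℚ))⁻¹.den.Coprime ℓ
  rw [Rat.inv_intCast_den]
  split_ifs with h
  · simp
  · apply Nat.Coprime.symm
    rw [Nat.Prime.coprime_iff_not_dvd (Fact.out : ℓ.Prime)]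
    intro hd
    exact hm (Int.natCast_dvd.mpr hd)

theorem RlBasic_isPrime_span : (Ideal.span {(ℓ : ℤ)}).IsPrime :=
  (Ideal.span_singleton_prime (by exact_mod_cast (Fact.out : ℓ.Prime).ne_zero)).2
    (Nat.prime_iff_prime_int.1 Fact.out)

theorem RlBasic_isUnit_intCast {m : ℤ} (hm : ¬ (ℓ : ℤ) ∣ m) :
    IsUnit ((m : ℤ) : ↥(GaloisRep.ratLocalizedAt ℓ)) := by
  have hm0 : (m : ℚ) ≠ 0 := by
    intro h
    apply hm
    have : m = 0 := by exact_mod_cast h
    simp [this]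
  refine IsUnit.of_mul_eq_one ⟨((m : ℚ))⁻¹, RlBasic_inv_int_mem ℓ hm⟩ ?_
  ext
  simp [hm0]

theorem RlBasic_isLocalization :
    have := RlBasic_isPrime_span ℓ
    IsLocalization.AtPrime ↥(GaloisRep.ratLocalizedAt ℓ) (Ideal.span {(ℓ : ℤ)}) := by
  have := RlBasic_isPrime_span ℓ
  rw [IsLocalization.AtPrime, isLocalization_iff]
  refine ⟨?_, ?_, ?_⟩
  · rintro ⟨y, hy⟩
    have hy' : ¬ (ℓ : ℤ) ∣ y := fun h => hy (Ideal.mem_span_singleton.mpr h)
    simpa using RlBasic_isUnit_intCast ℓ hy'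
  · intro z
    have hden : ((z : ℚ).den : ℤ) ∈ (Ideal.span {(ℓ : ℤ)}).primeCompl := by
      intro h
      rw [SetLike.mem_coe, Ideal.mem_span_singleton] at h
      have h1 : ℓ ∣ (z : ℚ).den := by exact_mod_cast h
      have hc : (z : ℚ).den.Coprime ℓ := z.2
      have h2 : ℓ ∣ Nat.gcd (z : ℚ).den ℓ := Nat.dvd_gcd h1 dvd_rfl
      rw [hc] at h2
      exact (Fact.out : ℓ.Prime).one_lt.ne' (Nat.dvd_one.mp h2)
    refine ⟨((z : ℚ).num, ⟨((z : ℚ).den : ℤ), hden⟩), ?_⟩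
    ext
    simp
  · intro x y h
    refine ⟨1, ?_⟩
    have h1 : ((algebraMap ℤ ↥(GaloisRep.ratLocalizedAt ℓ) x : ↥(GaloisRep.ratLocalizedAt ℓ)) : ℚ)
        = (algebraMap ℤ ↥(GaloisRep.ratLocalizedAt ℓ) y : ↥(GaloisRep.ratLocalizedAt ℓ)) := by
      rw [h]
    have h2 : (x : ℚ) = y := by simpa using h1
    have h3 : x = y := by exact_mod_cast h2
    simp [h3]

instance instIsFractionRingRl : IsFractionRing (Rl ℓ) ℚ := by
  have := RlBasic_isPrime_span ℓ
  have := RlBasic_isLocalization ℓ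
  exact IsFractionRing.isFractionRing_of_isDomain_of_isLocalization
    (Ideal.span {(ℓ : ℤ)}).primeCompl ↥(GaloisRep.ratLocalizedAt ℓ) ℚ

instance instIsPrincipalIdealRingRl : IsPrincipalIdealRing (Rl ℓ) := by
  have := RlBasic_isPrime_span ℓ
  have := RlBasic_isLocalization ℓ
  have h0 : Ideal.span {(ℓ : ℤ)} ≠ ⊥ := by
    rw [Ne, Ideal.span_singleton_eq_bot]
    exact_mod_cast (Fact.out : ℓ.Prime).ne_zero
  have : IsDiscreteValuationRing ↥(GaloisRep.ratLocalizedAt ℓ) :=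
    IsLocalization.AtPrime.isDiscreteValuationRing_of_dedekind_domain ℤ h0 _
  infer_instance

variable {ℓ}

/-- General form of `exists_basis_of_fg`. -/
theorem RlBasic_exists_basis {W : Type*} [AddCommGroup W] [Module ℚ W] [Module (Rl ℓ) W]
    [IsScalarTower (Rl ℓ) ℚ W] (M : Submodule (Rl ℓ) W) (hM : M.FG) :
    ∃ (n : ℕ) (b : Module.Basis (Fin n) (Rl ℓ) M),
      LinearIndependent ℚ (fun i => ((b i : M) : W)) := by
  have : Module.Finite (Rl ℓ) M := Module.Finite.iff_fg.2 hM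
  have : Module.IsTorsionFree (Rl ℓ) W := by
    refine ⟨fun r hr x y hxy => ?_⟩
    have hr0 : (r : ℚ) ≠ 0 := by
      intro h
      exact hr.ne_zero (Subtype.ext h)
    have h1 : (r : ℚ) • x = (r : ℚ) • y := by
      have e : ∀ z : W, (r : ℚ) • z = r • z := fun z => by
        rw [← algebraMap_smul ℚ r z]
        rfl
      rw [e, e]
      exact hxy
    exact smul_right_injective W hr0 h1
  obtain ⟨n, b⟩ := Module.basisOfFiniteTypeTorsionFree' (R := Rl ℓ) (M := M)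
  refine ⟨n, b, ?_⟩
  rw [← LinearIndependent.iff_fractionRing (Rl ℓ) ℚ]
  exact b.linearIndependent.map' M.subtype (Submodule.ker_subtype M)

/-- A finitely generated `ℤ_(ℓ)`-submodule of a space of `ℚ̄`-valued functions is free, and a basis
is `ℚ`-linearly independent. -/
theorem exists_basis_of_fg {X : Type*} (M : Submodule (Rl ℓ) (X → Qb)) (hM : M.FG) :
    ∃ (n : ℕ) (b : Module.Basis (Fin n) (Rl ℓ) M),
      LinearIndependent ℚ (fun i => ((b i : M) : X → Qb)) :=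
  RlBasic_exists_basis M hM

/-- The same for submodules of `ℚ̄`. -/
theorem exists_basis_of_fg' (M : Submodule (Rl ℓ) Qb) (hM : M.FG) :
    ∃ (n : ℕ) (b : Module.Basis (Fin n) (Rl ℓ) M),
      LinearIndependent ℚ (fun i => ((b i : M) : Qb)) :=
  RlBasic_exists_basis M hM

/-- an integer prime to `ℓ` is a unit of `A`. -/
theorem RlBasic_inv_intCast_mem (A : ValuationSubring Qb) (hA : (ℓ : Qb)⁻¹ ∉ A) {m : ℤ}
    (hm : ¬ (ℓ : ℤ) ∣ m) : ((m : Qb))⁻¹ ∈ A := by
  by_contra hcon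
  have hl : A.valuation (ℓ : Qb) < 1 := by
    rw [← A.valuation_le_one_iff, map_inv₀, not_le] at hA
    have h0 : A.valuation (ℓ : Qb) ≠ 0 := by
      intro h
      rw [h, inv_zero] at hA
      exact absurd hA (by simp)
    exact (one_lt_inv₀ (zero_lt_iff.2 h0)).1 hA
  have hmv : A.valuation (m : Qb) < 1 := by
    rw [← A.valuation_le_one_iff, map_inv₀, not_le] at hcon
    have h0 : A.valuation (m : Qb) ≠ 0 := by
      intro h
      rw [h, inv_zero] at hcon
      exact absurd hcon (by simp)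
    exact (one_lt_inv₀ (zero_lt_iff.2 h0)).1 hcon
  have hcop : IsCoprime (ℓ : ℤ) m :=
    ((Nat.prime_iff_prime_int.1 (Fact.out : ℓ.Prime)).coprime_iff_not_dvd).2 hm
  obtain ⟨a, b, hab⟩ := hcop
  have hint : ∀ z : ℤ, A.valuation (z : Qb) ≤ 1 := fun z =>
    (A.valuation_le_one_iff _).2 (intCast_mem A z)
  have h1 : (1 : Qb) = (a : Qb) * (ℓ : Qb) + (b : Qb) * (m : Qb) := by
    have := congrArg (Int.cast : ℤ → Qb) hab
    push_cast at this
    exact this.symm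
  have h2 : A.valuation (1 : Qb) < 1 := by
    rw [h1]
    refine lt_of_le_of_lt (A.valuation.map_add _ _) (max_lt ?_ ?_)
    · rw [map_mul]
      exact lt_of_le_of_lt (mul_le_of_le_one_left' (hint a)) hl
    · rw [map_mul]
      exact lt_of_le_of_lt (mul_le_of_le_one_left' (hint b)) hmv
  rw [map_one] at h2
  exact lt_irrefl _ h2

/-- `ℤ_(ℓ)` is contained in every valuation subring of `ℚ̄` in which `ℓ` is not a unit. -/
theorem algebraMap_Rl_mem (A : ValuationSubring Qb) (hA : (ℓ : Qb)⁻¹ ∉ A) (r : Rl ℓ) :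
    algebraMap (Rl ℓ) Qb r ∈ A := by
  have hden : ¬ (ℓ : ℤ) ∣ ((r : ℚ).den : ℤ) := by
    intro h
    have h1 : ℓ ∣ (r : ℚ).den := by exact_mod_cast h
    have hc : (r : ℚ).den.Coprime ℓ := r.2
    have h2 : ℓ ∣ Nat.gcd (r : ℚ).den ℓ := Nat.dvd_gcd h1 dvd_rfl
    rw [hc] at h2
    exact (Fact.out : ℓ.Prime).one_lt.ne' (Nat.dvd_one.mp h2)
  have h1 : algebraMap (Rl ℓ) Qb r = ((r : ℚ).num : Qb) * ((((r : ℚ).den : ℤ) : Qb))⁻¹ := by
    have h2 : algebraMap (Rl ℓ) Qb r = algebraMap ℚ Qb (r : ℚ) := rfl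
    rw [h2]
    conv_lhs => rw [← Rat.num_div_den (r : ℚ)]
    rw [map_div₀, div_eq_mul_inv]
    simp
  rw [h1]
  exact mul_mem (intCast_mem A _) (RlBasic_inv_intCast_mem A hA hden)

/-- A rational number lying in a valuation subring of `ℚ̄` in which `ℓ` is not a unit is in
`ℤ_(ℓ)`. -/
theorem mem_Rl_of_mem (A : ValuationSubring Qb) (hA : (ℓ : Qb)⁻¹ ∉ A) (q : ℚ)
    (hq : algebraMap ℚ Qb q ∈ A) : q ∈ Rl ℓ := by
  change q.den.Coprime ℓ
  apply Nat.Coprime.symm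
  rw [Nat.Prime.coprime_iff_not_dvd (Fact.out : ℓ.Prime)]
  rintro ⟨d, hd⟩
  apply hA
  have hnum : ¬ (ℓ : ℤ) ∣ q.num := by
    intro h
    have h1 : ℓ ∣ q.num.natAbs := Int.natCast_dvd.1 h
    have h2 : ℓ ∣ Nat.gcd q.num.natAbs q.den := Nat.dvd_gcd h1 ⟨d, hd⟩
    rw [q.reduced] at h2
    exact (Fact.out : ℓ.Prime).one_lt.ne' (Nat.dvd_one.mp h2)
  have hl0 : (ℓ : Qb) ≠ 0 := by exact_mod_cast (Fact.out : ℓ.Prime).ne_zero
  have hd0 : (d : Qb) ≠ 0 := by
    intro h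
    have : d = 0 := by exact_mod_cast h
    rw [this, mul_zero] at hd
    exact q.den_ne_zero hd
  have hn0 : ((q.num : ℤ) : Qb) ≠ 0 := by
    intro h
    have : q.num = 0 := by exact_mod_cast h
    exact hnum (this ▸ dvd_zero _)
  have h1 : algebraMap ℚ Qb q = ((q.num : ℤ) : Qb) / ((ℓ : Qb) * (d : Qb)) := by
    conv_lhs => rw [← Rat.num_div_den q]
    rw [map_div₀, hd]
    simp
  have h2 : (ℓ : Qb)⁻¹ = algebraMap ℚ Qb q * (((q.num : ℤ) : Qb))⁻¹ * (d : Qb) := by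
    rw [h1]
    field_simp
  rw [h2]
  exact mul_mem (mul_mem hq (RlBasic_inv_intCast_mem A hA hnum)) (natCast_mem A d)

theorem RlBasic_isGalois (inst : Algebra ℚ (AlgebraicClosure ℚ)) :
    @IsGalois ℚ _ (AlgebraicClosure ℚ) _ inst := by
  have h : inst = AlgebraicClosure.instAlgebra ℚ := Subsingleton.elim _ _
  rw [h]
  infer_instance

open Polynomial in
/-- An algebraic number all of whose conjugates lie in one valuation subring over `ℓ` is integral
over `ℤ_(ℓ)` (the coefficients of the minimal polynomial are polynomials in the conjugates, hence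
lie in `A ∩ ℚ = ℤ_(ℓ)`). -/
theorem isIntegral_of_forall_mem (A : ValuationSubring Qb) (hA : (ℓ : Qb)⁻¹ ∉ A) (b : Qb)
    (hb : ∀ τ : GQ, τ b ∈ A) : IsIntegral (Rl ℓ) b := by
  have hgal : IsGalois ℚ Qb := RlBasic_isGalois _
  have hbint : IsIntegral ℚ b := Algebra.IsIntegral.isIntegral b
  set p := minpoly ℚ b with hp
  have hmonic : p.Monic := minpoly.monic hbint
  have hsplit : (p.map (algebraMap ℚ Qb)).Splits := IsAlgClosed.splits _
  have hprod := hsplit.eq_prod_roots_of_monic (hmonic.map _)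
  have hroots : ∀ r ∈ (p.map (algebraMap ℚ Qb)).roots, r ∈ A := by
    intro r hr
    have hr0 : aeval r p = 0 := by
      have := (mem_roots'.1 hr).2
      rwa [IsRoot.def, eval_map_algebraMap] at this
    have hmin : p = minpoly ℚ r :=
      minpoly.eq_of_irreducible_of_monic (minpoly.irreducible hbint) hr0 hmonic
    have horb : r ∈ MulAction.orbit GQ b :=
      (Normal.minpoly_eq_iff_mem_orbit Qb).1 hmin.symm
    obtain ⟨τ, rfl⟩ := horb
    exact hb τ
  have hlift : p.map (algebraMap ℚ Qb) ∈ lifts A.subtype := by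
    rw [hprod]
    refine Subsemiring.multiset_prod_mem _ _ ?_
    intro f hf
    obtain ⟨r, hr, rfl⟩ := Multiset.mem_map.1 hf
    rw [lifts_iff_coeff_lifts]
    intro n
    refine ⟨⟨(X - C r).coeff n, ?_⟩, rfl⟩
    rw [coeff_sub, coeff_X, coeff_C]
    refine sub_mem ?_ ?_
    · split_ifs
      · exact A.one_mem
      · exact A.zero_mem
    · split_ifs
      · exact hroots r hr
      · exact A.zero_mem
  have hcoeff : p ∈ lifts (algebraMap (Rl ℓ) ℚ) := by
    rw [lifts_iff_coeff_lifts]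
    intro n
    obtain ⟨a, ha⟩ := (lifts_iff_coeff_lifts _).1 hlift n
    rw [coeff_map] at ha
    have : algebraMap ℚ Qb (p.coeff n) ∈ A := by
      rw [← ha]
      exact a.2
    exact ⟨⟨p.coeff n, mem_Rl_of_mem A hA _ this⟩, rfl⟩
  obtain ⟨q, hq, -, hqm⟩ := lifts_and_natDegree_eq_and_monic hcoeff hmonic
  refine ⟨q, hqm, ?_⟩
  have h1 : eval₂ (algebraMap (Rl ℓ) Qb) b q = eval₂ (algebraMap ℚ Qb) b (q.map (algebraMap (Rl ℓ) ℚ)) := by
    rw [eval₂_map]
    rfl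
  rw [h1, hq]
  exact minpoly.aeval ℚ b

end Fermat.Agent.S19
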