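import Fermat.Agent.S19.A.Descent
import Fermat.Agent.S19.A.RlBasic
import Fermat.Agent.S19.A.FunHopf

/-!
# S19 / A4: a Hopf order of functions gives a finite flat model (assembly of A1, A2, A3)
-/

set_option autoImplicit false

namespace Fermat.Agent.S19

theorem algebraMap_Rl_injective (ℓ : ℕ) : Function.Injective (algebraMap (Rl ℓ) Qb) := by
  intro a b h
  have h' : algebraMap ℚ Qb (a : ℚ) = algebraMap ℚ Qb (b : ℚ) := h
  exact Subtype.ext ((algebraMap ℚ Qb).injective h')

theorem IsFunFlat.isFlatMod {ℓ : ℕ} [Fact ℓ.Prime] {G : Type} [AddCommGroup G] [Finite G]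
    [DistribMulAction GQ G] (h : IsFunFlat ℓ G) : IsFlatMod ℓ G := by
  obtain ⟨H, hH⟩ := h
  obtain ⟨n, b, hb⟩ := exists_basis_of_fg (Subalgebra.toSubmodule H) hH.fg
  let b' : Module.Basis (Fin n) (Rl ℓ) H := b.map (Subalgebra.toSubmoduleEquiv H)
  have hb' : LinearIndependent Qb (fun i => ((b' i : H) : G → Qb)) := by
    apply linearIndependent_of_equivariant
    · intro i σ x
      exact hH.equivariant _ (b' i).2 σ x
    · exact hb
  obtain ⟨H', i1, i2, hfin, hfree, hco, e, φ, hmul, hφ, hφ', hev⟩ :=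
    exists_hopf_points (algebraMap_Rl_injective ℓ) H b' hb' hH.separates hH.counit hH.comul
  refine ⟨H', i1, i2, hfin, inferInstance, hco, e, hmul, ?_⟩
  intro σ f g hfg
  apply hH.separates
  intro h hh
  obtain ⟨h', rfl⟩ := hφ' h hh
  rw [hH.equivariant _ hh, ← hev, ← hev, hfg]

end Fermat.Agent.S19
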