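import Fermat.Agent.S19.Defs

/-!
# S19 / A7: the ring of functions with separated variables
-/

set_option autoImplicit false

namespace Fermat.Agent.S19

variable {K Γ : Type*} [Field K] [Group Γ] {β : Γ →* RingAut K} {A : ValuationSubring K}

/-- Form of `IsSep` with an arbitrary finite index type. -/
theorem Sep_isSep_of_fintype {ι : Type*} [Fintype ι] {u : Γ → K} (a b : ι → K)
    (ha : ∀ i, a i ∈ A) (hb : ∀ i τ, β τ (b i) ∈ A) (hu : ∀ τ, u τ = ∑ i, a i * β τ (b i)) :
    IsSep β A u := by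
  classical
  let e := Fintype.equivFin ι
  refine ⟨Fintype.card ι, fun i => a (e.symm i), fun i => b (e.symm i), fun i => ha _,
    fun i τ => hb _ τ, fun τ => ?_⟩
  rw [hu τ]
  exact (Equiv.sum_comp e.symm (fun i => a i * β τ (b i))).symm

theorem Sep_congr {u v : Γ → K} (hu : IsSep β A u) (h : ∀ τ, u τ = v τ) : IsSep β A v := by
  have : u = v := funext h
  exact this ▸ hu

theorem IsSep.const {a : K} (ha : a ∈ A) : IsSep β A (fun _ => a) := by
  refine Sep_isSep_of_fintype (ι := Unit) (fun _ => a) (fun _ => 1) (fun _ => ha)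
    (fun _ τ => by simp [A.one_mem]) (fun τ => by simp)

/-- `τ ↦ τ b`. -/
theorem IsSep.conj {b : K} (hb : ∀ τ, β τ b ∈ A) : IsSep β A (fun τ => β τ b) := by
  refine Sep_isSep_of_fintype (ι := Unit) (fun _ => 1) (fun _ => b) (fun _ => A.one_mem)
    (fun _ τ => hb τ) (fun τ => by simp)

theorem IsSep.add {u v : Γ → K} (hu : IsSep β A u) (hv : IsSep β A v) :
    IsSep β A (fun τ => u τ + v τ) := by
  obtain ⟨n, a, b, ha, hb, hu⟩ := hu
  obtain ⟨m, c, d, hc, hd, hv⟩ := hv
  refine Sep_isSep_of_fintype (ι := Fin n ⊕ Fin m) (Sum.elim a c) (Sum.elim b d) ?_ ?_ ?_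
  · rintro (i | i)
    · exact ha i
    · exact hc i
  · rintro (i | i) τ
    · exact hb i τ
    · exact hd i τ
  · intro τ
    simp only [Fintype.sum_sum_type, Sum.elim_inl, Sum.elim_inr, hu τ, hv τ]

theorem IsSep.mul {u v : Γ → K} (hu : IsSep β A u) (hv : IsSep β A v) :
    IsSep β A (fun τ => u τ * v τ) := by
  obtain ⟨n, a, b, ha, hb, hu⟩ := hu
  obtain ⟨m, c, d, hc, hd, hv⟩ := hv
  refine Sep_isSep_of_fintype (ι := Fin n × Fin m) (fun p => a p.1 * c p.2)
    (fun p => b p.1 * d p.2) ?_ ?_ ?_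
  · intro p
    exact A.mul_mem _ _ (ha _) (hc _)
  · intro p τ
    rw [map_mul]
    exact A.mul_mem _ _ (hb _ τ) (hd _ τ)
  · intro τ
    simp only [hu τ, hv τ, Finset.sum_mul_sum, Fintype.sum_prod_type, map_mul]
    refine Finset.sum_congr rfl fun i _ => Finset.sum_congr rfl fun j _ => ?_
    ring

theorem IsSep.sum {ι : Type*} (s : Finset ι) {u : ι → Γ → K} (hu : ∀ i ∈ s, IsSep β A (u i)) :
    IsSep β A (fun τ => ∑ i ∈ s, u i τ) := by
  classical
  induction s using Finset.induction_on with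
  | empty => simpa using IsSep.const (β := β) A.zero_mem
  | insert i s hi ih =>
    have h1 := (hu i (Finset.mem_insert_self i s)).add
      (ih fun j hj => hu j (Finset.mem_insert_of_mem hj))
    have : (fun τ => ∑ j ∈ insert i s, u j τ) = fun τ => u i τ + ∑ j ∈ s, u j τ := by
      funext τ
      rw [Finset.sum_insert hi]
    rw [this]
    exact h1

theorem IsSep.prod {ι : Type*} (s : Finset ι) {u : ι → Γ → K} (hu : ∀ i ∈ s, IsSep β A (u i)) :
    IsSep β A (fun τ => ∏ i ∈ s, u i τ) := by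
  classical
  induction s using Finset.induction_on with
  | empty => simpa using IsSep.const (β := β) A.one_mem
  | insert i s hi ih =>
    have h1 := (hu i (Finset.mem_insert_self i s)).mul
      (ih fun j hj => hu j (Finset.mem_insert_of_mem hj))
    have : (fun τ => ∏ j ∈ insert i s, u j τ) = fun τ => u i τ * ∏ j ∈ s, u j τ := by
      funext τ
      rw [Finset.prod_insert hi]
    rw [this]
    exact h1

theorem IsSep.pow {u : Γ → K} (hu : IsSep β A u) (n : ℕ) : IsSep β A (fun τ => u τ ^ n) := by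
  have h := IsSep.prod (β := β) (A := A) (Finset.range n) (u := fun _ => u) (fun _ _ => hu)
  simpa using h

theorem IsSep.mem {u : Γ → K} (hu : IsSep β A u) (τ : Γ) : u τ ∈ A := by
  obtain ⟨n, a, b, ha, hb, hu⟩ := hu
  rw [hu τ]
  exact A.toSubring.sum_mem fun i _ => A.mul_mem _ _ (ha i) (hb i τ)

/-- A function with separated variables takes finitely many values (finite orbits on `K`). -/
theorem IsSep.finite_range (horb : ∀ b : K, (Set.range fun τ => β τ b).Finite) {u : Γ → K}
    (hu : IsSep β A u) : (Set.range u).Finite := by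
  obtain ⟨n, a, b, ha, hb, hu⟩ := hu
  -- the map `τ ↦ (τ b_i)_i` has finite range
  have h1 : (Set.range fun τ : Γ => fun i : Fin n => β τ (b i)).Finite := by
    refine (Set.Finite.pi fun i : Fin n => horb (b i)).subset ?_
    rintro _ ⟨τ, rfl⟩
    intro i _
    exact ⟨τ, rfl⟩
  refine (h1.image fun w : Fin n → K => ∑ i, a i * w i).subset ?_
  rintro _ ⟨τ, rfl⟩
  exact ⟨_, ⟨τ, rfl⟩, (hu τ).symm⟩

/-- Polynomial expressions with coefficients in `A`. -/
theorem Sep_isSep_eval {u : Γ → K} (hu : IsSep β A u) (P : Polynomial K)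
    (hP : ∀ i, P.coeff i ∈ A) : IsSep β A (fun τ => P.eval (u τ)) := by
  have : (fun τ => P.eval (u τ)) = fun τ => ∑ i ∈ P.support, P.coeff i * u τ ^ i := by
    funext τ
    rw [Polynomial.eval_eq_sum, Polynomial.sum_def]
  rw [this]
  exact IsSep.sum _ fun i _ => (IsSep.const (hP i)).mul (hu.pow i)

/-- Units: if all values of `u` are units of `A`, then `u⁻¹` has separated variables.
(`χ(T) = ∏_{c ∈ range u} (T - c) ∈ A[T]` kills `u` pointwise and `χ(0)` is a unit of `A`, so
`u⁻¹` is a polynomial in `u` with coefficients in `A`.) -/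
theorem IsSep.inv (horb : ∀ b : K, (Set.range fun τ => β τ b).Finite) {u : Γ → K}
    (hu : IsSep β A u) (hne : ∀ τ, u τ ≠ 0) (hunit : ∀ τ, (u τ)⁻¹ ∈ A) :
    IsSep β A (fun τ => (u τ)⁻¹) := by
  classical
  have hfin := hu.finite_range horb
  set s : Finset K := hfin.toFinset with hs
  have hmem : ∀ c ∈ s, ∃ τ, u τ = c := by
    intro c hc
    simpa [hs] using hc
  have hmem' : ∀ τ, u τ ∈ s := by
    intro τ
    simp [hs]
  -- `Q(T) = ∏ (1 - c⁻¹ T)`, coefficients in `A`, `Q(0) = 1`, `Q(u τ) = 0`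
  set Q : Polynomial K := ∏ c ∈ s, (1 - Polynomial.C c⁻¹ * Polynomial.X) with hQ
  have hQA : Q ∈ Polynomial.lifts A.subtype := by
    rw [hQ]
    refine Subsemiring.prod_mem _ fun c hc => ?_
    obtain ⟨τ, rfl⟩ := hmem c hc
    refine ⟨1 - Polynomial.C ⟨(u τ)⁻¹, hunit τ⟩ * Polynomial.X, ?_⟩
    simp
  have hQcoeff : ∀ i, Q.coeff i ∈ A := by
    intro i
    obtain ⟨R, hR⟩ := hQA
    rw [← hR]
    simp
  have hQ0 : Q.coeff 0 = 1 := by
    rw [Polynomial.coeff_zero_eq_eval_zero, hQ, Polynomial.eval_prod]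
    simp
  have hQu : ∀ τ, Q.eval (u τ) = 0 := by
    intro τ
    rw [hQ, Polynomial.eval_prod]
    refine Finset.prod_eq_zero (hmem' τ) ?_
    simp [hne τ]
  -- `Q = 1 + T * R`
  have hdiv : Q = Polynomial.X * Q.divX + Polynomial.C 1 := by
    conv_lhs => rw [← Polynomial.X_mul_divX_add Q]
    rw [hQ0]
  have hR : ∀ i, (-Q.divX).coeff i ∈ A := by
    intro i
    rw [Polynomial.coeff_neg, Polynomial.coeff_divX]
    exact A.neg_mem _ (hQcoeff _)
  refine Sep_congr (Sep_isSep_eval hu (-Q.divX) hR) ?_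
  intro τ
  have h := hQu τ
  rw [hdiv] at h
  simp only [Polynomial.eval_add, Polynomial.eval_mul, Polynomial.eval_X, Polynomial.eval_C] at h
  rw [Polynomial.eval_neg]
  field_simp [hne τ]
  linear_combination -h

theorem IsSep.zpow (horb : ∀ b : K, (Set.range fun τ => β τ b).Finite) {u : Γ → K}
    (hu : IsSep β A u) (hne : ∀ τ, u τ ≠ 0) (hunit : ∀ τ, (u τ)⁻¹ ∈ A) (n : ℤ) :
    IsSep β A (fun τ => u τ ^ n) := by
  cases n with
  | ofNat n => simpa using hu.pow n
  | negSucc n =>
    have h := (hu.inv horb hne hunit).pow (n + 1)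
    refine Sep_congr h fun τ => ?_
    rw [zpow_negSucc, inv_pow]

theorem IsSep.congr {u v : Γ → K} (hu : IsSep β A u) (h : ∀ τ, u τ = v τ) : IsSep β A v := by
  have : u = v := funext h
  exact this ▸ hu

end Fermat.Agent.S19
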