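import Fermat.Agent.S19.A.Descent
import Fermat.Agent.S19.A.RlBasic

/-!
# S19 / A5: the pairing criterion (Theorem A)

`G` a finite `G_ℚ`-module, `E x y τ` (think: `e(x, τ y)` for a pairing `e`) multiplicative in `x`,
equivariant, separating, and with separated variables w.r.t. ONE valuation subring `A` of `ℚ̄` over
`ℓ`.  Then `G` has a Hopf order of functions.

Proof.  Let `B` be the (finite) set of all `b_i` occurring in `hint x y` (`x ∈ G`, `y ∈ Y`); they are
integral over `R = ℤ_(ℓ)` (`isIntegral_of_forall_mem`), so `𝒪 := R[B] ⊆ ℚ̄` is a finitely generated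
`R`-module (`fg_adjoin_of_finite`); basis `ω_1..ω_d`, `ℚ`-independent (`exists_basis_of_fg'`), so the
functions `τ ↦ τ ω_j` are `ℚ̄`-independent (`linearIndependent_conj`).  Writing `b_i = ∑ r_ij ω_j`
get `E x y τ = ∑_j φ_{y,j}(x) τ(ω_j)` with unique `φ_{y,j}(x) = ∑ a_i r_ij ∈ A`.  By uniqueness:
* `φ_{y,k}(x + x') = ∑ c^k_ij φ_{y,i}(x) φ_{y,j}(x')`, `ω_i ω_j = ∑ c^k_ij ω_k`, `c ∈ R` (`hmul`);
* `φ_{y,j}(σ x) = σ (φ_{y,j}(x))` (`hequiv`), hence all conjugates of `φ_{y,j}(x)` are in `A`, hence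
  `φ_{y,j}(x)` is integral over `R`;
* `φ_{y,j}(0) = r_j` where `1 = ∑ r_j ω_j` (`E 0 y τ = 1` by `hmul`, `hne`).
`H := Algebra.adjoin R {φ_{y,j}}`; `fg` by `fg_adjoin_of_finite` (an element of `G → ℚ̄` with integral
values is integral, `G` finite); the other fields by `Algebra.adjoin_induction`.
-/

set_option autoImplicit false

namespace Fermat.Agent.S19

section CriterionAux

variable {R K G : Type*} [CommRing R] [CommRing K] [Algebra R K]

/-- A function with integral values on a finite set is integral. -/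
theorem criterion_isIntegral_pi [Finite G] (f : G → K) (hf : ∀ x, IsIntegral R (f x)) :
    IsIntegral R f := by
  classical
  cases nonempty_fintype G
  choose p hp hp0 using hf
  refine ⟨∏ x, p x, Polynomial.monic_prod_of_monic _ _ fun x _ => hp x, ?_⟩
  funext x
  have h1 : Polynomial.eval₂ (algebraMap R (G → K)) f (∏ x, p x) x
      = Polynomial.eval₂ (algebraMap R K) (f x) (∏ x, p x) := by
    exact (Polynomial.aeval_algHom_apply (Pi.evalAlgHom R (fun _ : G => K) x) f (∏ x, p x)).symm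
  rw [h1, Polynomial.eval₂_finsetProd]
  exact Finset.prod_eq_zero (Finset.mem_univ x) (hp0 x)

variable [Add G]

/-- The comultiplication condition. -/
def CriterionComul (H : Subalgebra R (G → K)) (h : G → K) : Prop :=
  ∃ (n : ℕ) (a c : Fin n → G → K), (∀ i, a i ∈ H) ∧ (∀ i, c i ∈ H) ∧
    ∀ x y : G, h (x + y) = ∑ i, a i x * c i y

theorem criterionComul_of_fintype (H : Subalgebra R (G → K)) (h : G → K) {ι : Type*} [Fintype ι]
    (a c : ι → G → K) (ha : ∀ i, a i ∈ H) (hc : ∀ i, c i ∈ H)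
    (hh : ∀ x y : G, h (x + y) = ∑ i, a i x * c i y) : CriterionComul H h := by
  refine ⟨Fintype.card ι, fun i => a ((Fintype.equivFin ι).symm i),
    fun i => c ((Fintype.equivFin ι).symm i), fun i => ha _, fun i => hc _, fun x y => ?_⟩
  rw [hh]
  exact (Equiv.sum_comp (Fintype.equivFin ι).symm (fun i => a i x * c i y)).symm

theorem criterionComul_algebraMap (H : Subalgebra R (G → K)) (r : R) :
    CriterionComul H (algebraMap R (G → K) r) :=
  criterionComul_of_fintype H _ (ι := Unit) (fun _ => algebraMap R (G → K) r) (fun _ => 1)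
    (fun _ => H.algebraMap_mem r) (fun _ => H.one_mem) (fun x y => by simp)

theorem CriterionComul.add {H : Subalgebra R (G → K)} {h h' : G → K} (h1 : CriterionComul H h)
    (h2 : CriterionComul H h') : CriterionComul H (h + h') := by
  obtain ⟨n, a, c, ha, hc, hh⟩ := h1
  obtain ⟨n', a', c', ha', hc', hh'⟩ := h2
  refine criterionComul_of_fintype H _ (ι := Fin n ⊕ Fin n') (Sum.elim a a') (Sum.elim c c')
    ?_ ?_ ?_
  · rintro (i | i) <;> simp [ha, ha']
  · rintro (i | i) <;> simp [hc, hc']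
  · intro x y; simp [hh, hh', Fintype.sum_sum_type]

theorem CriterionComul.mul {H : Subalgebra R (G → K)} {h h' : G → K} (h1 : CriterionComul H h)
    (h2 : CriterionComul H h') : CriterionComul H (h * h') := by
  obtain ⟨n, a, c, ha, hc, hh⟩ := h1
  obtain ⟨n', a', c', ha', hc', hh'⟩ := h2
  refine criterionComul_of_fintype H _ (ι := Fin n × Fin n') (fun p => a p.1 * a' p.2)
    (fun p => c p.1 * c' p.2) (fun p => H.mul_mem (ha _) (ha' _))
    (fun p => H.mul_mem (hc _) (hc' _)) ?_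
  intro x y
  simp only [Pi.mul_apply, hh, hh', Finset.sum_mul_sum, Fintype.sum_prod_type]
  exact Finset.sum_congr rfl fun i _ => Finset.sum_congr rfl fun j _ => by ring

end CriterionAux

/-- A finite family of equivariant, integral valued, separating functions, stable under
comultiplication and with `ℤ_(ℓ)`-rational value at `0`, generates a Hopf order of functions. -/
theorem isFunFlat_of_coords (ℓ : ℕ) [Fact ℓ.Prime] {G J : Type} [AddCommGroup G] [Finite G]
    [DistribMulAction GQ G] [Finite J] (φ : J → G → Qb)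
    (hequiv : ∀ j (σ : GQ) x, φ j (σ • x) = σ (φ j x))
    (hint : ∀ j x, IsIntegral (Rl ℓ) (φ j x))
    (hsep : ∀ x y, (∀ j, φ j x = φ j y) → x = y)
    (hcounit : ∀ j, ∃ r : Rl ℓ, φ j 0 = algebraMap (Rl ℓ) Qb r)
    (hcomul : ∀ j, CriterionComul (Algebra.adjoin (Rl ℓ) (Set.range φ)) (φ j)) :
    IsFunFlat ℓ G := by
  refine ⟨Algebra.adjoin (Rl ℓ) (Set.range φ), ?_, ?_, ?_, ?_, ?_⟩
  · intro h hh σ x
    induction hh using Algebra.adjoin_induction with
    | mem f hf => obtain ⟨j, rfl⟩ := hf; exact hequiv j σ x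
    | algebraMap r => exact (σ.commutes (r : ℚ)).symm
    | add f g _ _ hf hg => simp [hf, hg]
    | mul f g _ _ hf hg => simp [hf, hg]
  · refine fg_adjoin_of_finite (Set.finite_range φ) ?_
    rintro _ ⟨j, rfl⟩
    exact criterion_isIntegral_pi _ (hint j)
  · intro x y h
    exact hsep x y fun j => h _ (Algebra.subset_adjoin ⟨j, rfl⟩)
  · intro h hh
    induction hh using Algebra.adjoin_induction with
    | mem f hf => obtain ⟨j, rfl⟩ := hf; exact hcounit j
    | algebraMap r => exact ⟨r, rfl⟩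
    | add f g _ _ hf hg =>
      obtain ⟨r, hr⟩ := hf
      obtain ⟨s, hs⟩ := hg
      exact ⟨r + s, by simp [hr, hs]⟩
    | mul f g _ _ hf hg =>
      obtain ⟨r, hr⟩ := hf
      obtain ⟨s, hs⟩ := hg
      exact ⟨r * s, by simp [hr, hs]⟩
  · intro h hh
    change CriterionComul _ h
    induction hh using Algebra.adjoin_induction with
    | mem f hf => obtain ⟨j, rfl⟩ := hf; exact hcomul j
    | algebraMap r => exact criterionComul_algebraMap _ r
    | add f g _ _ hf hg => exact hf.add hg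
    | mul f g _ _ hf hg => exact hf.mul hg

theorem criterion_galois_algebraMap (ℓ : ℕ) (τ : GQ) (r : Rl ℓ) :
    τ (algebraMap (Rl ℓ) Qb r) = algebraMap (Rl ℓ) Qb r :=
  τ.commutes (r : ℚ)

/-- Theorem A once coordinates w.r.t. a basis `ω` of an order have been chosen. -/
theorem isFunFlat_of_sep_aux (ℓ : ℕ) [Fact ℓ.Prime] {G Y : Type} [AddCommGroup G] [Finite G]
    [DistribMulAction GQ G] [Finite Y] (A : ValuationSubring Qb) (hA : (ℓ : Qb)⁻¹ ∉ A)
    (E : G → Y → GQ → Qb)
    (hmul : ∀ x x' y τ, E (x + x') y τ = E x y τ * E x' y τ)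
    (hne : ∀ x y τ, E x y τ ≠ 0)
    (hequiv : ∀ (σ : GQ) x y τ, E (σ • x) y (σ * τ) = σ (E x y τ))
    (hsep : ∀ x, (∀ y τ, E x y τ = 1) → x = 0)
    (d : ℕ) (ω : Fin d → Qb) (hind : LinearIndependent Qb (fun (i : Fin d) (τ : GQ) => τ (ω i)))
    (c : Fin d → Fin d → Fin d → Rl ℓ)
    (hc : ∀ i j, ω i * ω j = ∑ k, algebraMap (Rl ℓ) Qb (c i j k) * ω k)
    (r : Fin d → Rl ℓ) (hr : (1 : Qb) = ∑ k, algebraMap (Rl ℓ) Qb (r k) * ω k)
    (φ : Y → Fin d → G → Qb) (hφA : ∀ y j x, φ y j x ∈ A)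
    (hφ : ∀ x y (τ : GQ), E x y τ = ∑ j, φ y j x * τ (ω j)) :
    IsFunFlat ℓ G := by
  classical
  have huniq : ∀ u u' : Fin d → Qb,
      (∀ τ : GQ, ∑ j, u j * τ (ω j) = ∑ j, u' j * τ (ω j)) → u = u' := by
    intro u u' h
    have h0 := Fintype.linearIndependent_iff.1 hind (u - u') (by
      funext τ
      have := h τ
      simp only [Finset.sum_apply, Pi.smul_apply, Pi.sub_apply, smul_eq_mul, sub_mul,
        Finset.sum_sub_distrib, Pi.zero_apply]
      rw [this, sub_self])
    funext j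
    exact sub_eq_zero.1 (h0 j)
  -- equivariance
  have hφequiv : ∀ y j (σ : GQ) x, φ y j (σ • x) = σ (φ y j x) := by
    intro y j σ x
    refine congrFun (huniq (fun j => φ y j (σ • x)) (fun j => σ (φ y j x)) fun τ => ?_) j
    have h1 := hequiv σ x y (σ⁻¹ * τ)
    rw [mul_inv_cancel_left, hφ, hφ, map_sum] at h1
    rw [h1]
    refine Finset.sum_congr rfl fun j _ => ?_
    rw [map_mul]
    congr 1
    change (σ * (σ⁻¹ * τ)) (ω j) = _
    rw [mul_inv_cancel_left]
  have hE0 : ∀ y τ, E 0 y τ = 1 := by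
    intro y τ
    have h := hmul 0 0 y τ
    rw [add_zero] at h
    exact (mul_eq_left₀ (hne 0 y τ)).1 h.symm
  refine isFunFlat_of_coords ℓ (J := Y × Fin d) (fun p => φ p.1 p.2) ?_ ?_ ?_ ?_ ?_
  · rintro ⟨y, j⟩ σ x
    exact hφequiv y j σ x
  · rintro ⟨y, j⟩ x
    refine isIntegral_of_forall_mem A hA _ fun τ => ?_
    rw [← hφequiv]
    exact hφA _ _ _
  · intro x x' h
    have h1 : ∀ y τ, E x y τ = E x' y τ := by
      intro y τ
      rw [hφ, hφ]
      exact Finset.sum_congr rfl fun j _ => by rw [h (y, j)]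
    have h2 : x - x' = 0 := by
      refine hsep _ fun y τ => ?_
      have h3 := hmul (x - x') x' y τ
      rw [sub_add_cancel, h1] at h3
      exact (mul_eq_right₀ (hne x' y τ)).1 h3.symm
    exact sub_eq_zero.1 h2
  · rintro ⟨y, j⟩
    refine ⟨r j, ?_⟩
    refine congrFun (huniq (fun j => φ y j 0) (fun j => algebraMap (Rl ℓ) Qb (r j)) fun τ => ?_) j
    rw [← hφ, hE0]
    have := congrArg τ hr
    rw [map_one, map_sum] at this
    rw [this]
    exact Finset.sum_congr rfl fun j _ => by rw [map_mul, criterion_galois_algebraMap]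
  · rintro ⟨y, k⟩
    refine criterionComul_of_fintype _ _ (ι := Fin d × Fin d)
      (fun p => algebraMap (Rl ℓ) (G → Qb) (c p.1 p.2 k) * φ y p.1) (fun p => φ y p.2) ?_ ?_ ?_
    · intro p
      exact Subalgebra.mul_mem _ (Subalgebra.algebraMap_mem _ _)
        (Algebra.subset_adjoin ⟨(y, p.1), rfl⟩)
    · intro p
      exact Algebra.subset_adjoin ⟨(y, p.2), rfl⟩
    · intro x x'
      refine congrFun (huniq (fun k => φ y k (x + x'))
        (fun k => ∑ p : Fin d × Fin d,
          (algebraMap (Rl ℓ) (G → Qb) (c p.1 p.2 k) * φ y p.1) x * φ y p.2 x') fun τ => ?_) k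
      rw [← hφ, hmul, hφ, hφ, Finset.sum_mul_sum]
      simp only [Fintype.sum_prod_type, Finset.sum_mul]
      have h4 : ∀ i j, τ (ω i) * τ (ω j) = ∑ k, algebraMap (Rl ℓ) Qb (c i j k) * τ (ω k) := by
        intro i j
        rw [← map_mul, hc, map_sum]
        exact Finset.sum_congr rfl fun j _ => by rw [map_mul, criterion_galois_algebraMap]
      have h5 : ∀ i j, φ y i x * τ (ω i) * (φ y j x' * τ (ω j))
          = ∑ k, (algebraMap (Rl ℓ) (G → Qb) (c i j k) * φ y i) x * φ y j x' * τ (ω k) := by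
        intro i j
        rw [mul_mul_mul_comm, h4, Finset.mul_sum]
        refine Finset.sum_congr rfl fun k _ => ?_
        simp only [Pi.mul_apply, Pi.algebraMap_apply]
        ring
      simp only [h5]
      symm
      rw [Finset.sum_comm]
      refine Finset.sum_congr rfl fun i _ => ?_
      rw [Finset.sum_comm]

theorem isFunFlat_of_sep (ℓ : ℕ) [Fact ℓ.Prime] {G Y : Type} [AddCommGroup G] [Finite G]
    [DistribMulAction GQ G] [Finite Y] (A : ValuationSubring Qb) (hA : (ℓ : Qb)⁻¹ ∉ A)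
    (E : G → Y → GQ → Qb)
    (hmul : ∀ x x' y τ, E (x + x') y τ = E x y τ * E x' y τ)
    (hne : ∀ x y τ, E x y τ ≠ 0)
    (hequiv : ∀ (σ : GQ) x y τ, E (σ • x) y (σ * τ) = σ (E x y τ))
    (hsep : ∀ x, (∀ y τ, E x y τ = 1) → x = 0)
    (hint : ∀ x y, ∃ (n : ℕ) (a b : Fin n → Qb), (∀ i, a i ∈ A) ∧ (∀ i (τ : GQ), τ (b i) ∈ A) ∧
      ∀ τ : GQ, E x y τ = ∑ i, a i * τ (b i)) :
    IsFunFlat ℓ G := by
  classical
  choose n a b ha hb hE using hint
  let B : Set Qb := Set.range (fun p : Σ (xy : G × Y), Fin (n xy.1 xy.2) => b p.1.1 p.1.2 p.2)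
  have hBfin : B.Finite := Set.finite_range _
  have hBint : ∀ z ∈ B, IsIntegral (Rl ℓ) z := by
    rintro _ ⟨p, rfl⟩
    exact isIntegral_of_forall_mem A hA _ (hb _ _ _)
  let O : Subalgebra (Rl ℓ) Qb := Algebra.adjoin (Rl ℓ) B
  have hOfg : (Subalgebra.toSubmodule O).FG := fg_adjoin_of_finite hBfin hBint
  obtain ⟨d, ω, hω⟩ := exists_basis_of_fg' (Subalgebra.toSubmodule O) hOfg
  have hind := linearIndependent_conj _ hω
  have hexp : ∀ (z : Qb) (hz : z ∈ Subalgebra.toSubmodule O),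
      z = ∑ j, algebraMap (Rl ℓ) Qb (ω.repr ⟨z, hz⟩ j) * ((ω j : Subalgebra.toSubmodule O) : Qb) := by
    intro z hz
    have h1 := congrArg Subtype.val (ω.sum_repr ⟨z, hz⟩)
    rw [AddSubmonoidClass.coe_finsetSum] at h1
    refine h1.symm.trans ?_
    refine Finset.sum_congr rfl fun j _ => ?_
    rw [← Algebra.smul_def]
    rfl
  have hbO : ∀ x y i, b x y i ∈ Subalgebra.toSubmodule O := fun x y i =>
    Algebra.subset_adjoin ⟨⟨(x, y), i⟩, rfl⟩
  have hmulO : ∀ i j, ((ω i : Subalgebra.toSubmodule O) : Qb) * ((ω j : Subalgebra.toSubmodule O) : Qb)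
      ∈ Subalgebra.toSubmodule O := fun i j => O.mul_mem (ω i).2 (ω j).2
  have honeO : (1 : Qb) ∈ Subalgebra.toSubmodule O := O.one_mem
  refine isFunFlat_of_sep_aux ℓ A hA E hmul hne hequiv hsep d
    (fun j => ((ω j : Subalgebra.toSubmodule O) : Qb)) hind
    (fun i j k => ω.repr ⟨_, hmulO i j⟩ k) (fun i j => hexp _ (hmulO i j))
    (fun k => ω.repr ⟨_, honeO⟩ k) (hexp _ honeO)
    (fun y j x => ∑ i, a x y i * algebraMap (Rl ℓ) Qb (ω.repr ⟨_, hbO x y i⟩ j)) ?_ ?_
  · intro y j x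
    exact A.toSubring.sum_mem fun i _ => A.mul_mem _ _ (ha _ _ _) (algebraMap_Rl_mem A hA _)
  · intro x y τ
    rw [hE]
    simp only [Finset.sum_mul]
    rw [Finset.sum_comm]
    refine Finset.sum_congr rfl fun i _ => ?_
    conv_lhs => rw [hexp _ (hbO x y i)]
    rw [map_sum, Finset.mul_sum]
    refine Finset.sum_congr rfl fun j _ => ?_
    rw [map_mul, criterion_galois_algebraMap, mul_assoc]

end Fermat.Agent.S19
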