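import Fermat.Agent.S19.Defs

/-!
# S19 / A1: Galois descent for linear independence

`ℚ`-linearly independent `G_ℚ`-equivariant functions `X → ℚ̄` are `ℚ̄`-linearly independent.
Proof: minimal relation argument (Artin); uses `ℚ̄^{G_ℚ} = ℚ`.
-/

set_option autoImplicit false

namespace Fermat.Agent.S19

theorem Descent_isGalois (inst : Algebra ℚ (AlgebraicClosure ℚ)) :
    @IsGalois ℚ _ (AlgebraicClosure ℚ) _ inst := by
  have h : inst = AlgebraicClosure.instAlgebra ℚ := Subsingleton.elim _ _
  rw [h]
  infer_instance

/-- An element of `ℚ̄` fixed by `G_ℚ` is rational. -/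
theorem mem_range_of_fixed (a : Qb) (h : ∀ σ : GQ, σ a = a) : ∃ q : ℚ, algebraMap ℚ Qb q = a := by
  have : IsGalois ℚ Qb := Descent_isGalois inferInstance
  exact (InfiniteGalois.mem_range_algebraMap_iff_fixed (k := ℚ) (K := Qb) a).mpr h

/-- The induction behind `linearIndependent_of_equivariant`. -/
theorem Descent_aux {X ι : Type*} [MulAction GQ X] (b : ι → X → Qb)
    (hb : ∀ (i : ι) (σ : GQ) (x : X), b i (σ • x) = σ (b i x)) (h : LinearIndependent ℚ b)
    (s : Finset ι) : ∀ c : ι → Qb, ∑ i ∈ s, c i • b i = 0 → ∀ i ∈ s, c i = 0 := by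
  classical
  induction s using Finset.induction_on with
  | empty =>
    intro c _ i hi
    simp at hi
  | insert a s has ih =>
    intro c hc
    rw [Finset.sum_insert has] at hc
    by_cases hca : c a = 0
    · rw [hca, zero_smul, zero_add] at hc
      intro i hi
      rcases Finset.mem_insert.mp hi with rfl | hi
      · exact hca
      · exact ih c hc i hi
    · exfalso
      set l : ι → Qb := fun i => - c i / c a with hl
      have hba : b a = ∑ i ∈ s, l i • b i := by
        have h1 : c a • b a = - ∑ i ∈ s, c i • b i := eq_neg_of_add_eq_zero_left hc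
        have h2 : b a = (c a)⁻¹ • (c a • b a) := by
          rw [smul_smul, inv_mul_cancel₀ hca, one_smul]
        rw [h2, h1, smul_neg, Finset.smul_sum, ← Finset.sum_neg_distrib]
        refine Finset.sum_congr rfl fun i _ => ?_
        rw [smul_smul, ← neg_smul]
        congr 1
        simp only [hl]
        field_simp
      have hbax : ∀ x : X, b a x = ∑ i ∈ s, l i * b i x := by
        intro x
        rw [hba]
        simp [Finset.sum_apply]
      have hfix : ∀ i ∈ s, ∀ σ : GQ, σ (l i) = l i := by
        intro i hi σ
        have hrel : ∑ i ∈ s, (σ (l i) - l i) • b i = 0 := by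
          funext y
          obtain ⟨x, rfl⟩ : ∃ x, σ • x = y := ⟨σ⁻¹ • y, smul_inv_smul σ y⟩
          have h1 : b a (σ • x) = ∑ i ∈ s, l i * b i (σ • x) := hbax _
          have h2 : b a (σ • x) = ∑ i ∈ s, σ (l i) * b i (σ • x) := by
            rw [hb, hbax x, map_sum]
            refine Finset.sum_congr rfl fun i _ => ?_
            rw [map_mul, hb]
          simp only [Finset.sum_apply, Pi.smul_apply, smul_eq_mul, sub_mul,
            Finset.sum_sub_distrib, Pi.zero_apply]
          rw [← h1, ← h2, sub_self]
        exact sub_eq_zero.mp (ih _ hrel i hi)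
      choose! q hq using fun i (hi : i ∈ s) => mem_range_of_fixed (l i) (hfix i hi)
      have hrelQ : ∑ i ∈ insert a s, (if i = a then (1 : ℚ) else - q i) • b i = 0 := by
        rw [Finset.sum_insert has, if_pos rfl, one_smul]
        have h3 : ∑ i ∈ s, (if i = a then (1 : ℚ) else - q i) • b i = - ∑ i ∈ s, l i • b i := by
          rw [← Finset.sum_neg_distrib]
          refine Finset.sum_congr rfl fun i hi => ?_
          have hia : i ≠ a := fun h => has (h ▸ hi)
          rw [if_neg hia, neg_smul, ← hq i hi, algebraMap_smul]
        rw [h3, ← hba, add_neg_cancel]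
      have h4 := linearIndependent_iff'.mp h (insert a s) _ hrelQ a (Finset.mem_insert_self a s)
      rw [if_pos rfl] at h4
      exact one_ne_zero h4

/-- Galois descent for linear independence. -/
theorem linearIndependent_of_equivariant {X ι : Type*} [MulAction GQ X] (b : ι → X → Qb)
    (hb : ∀ (i : ι) (σ : GQ) (x : X), b i (σ • x) = σ (b i x)) (h : LinearIndependent ℚ b) :
    LinearIndependent Qb b :=
  linearIndependent_iff'.mpr fun s c hc i hi => Descent_aux b hb h s c hc i hi

/-- Special case (Dedekind-Artin): conjugation functions of `ℚ`-independent algebraic numbers. -/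
theorem linearIndependent_conj {ι : Type*} (ω : ι → Qb) (h : LinearIndependent ℚ ω) :
    LinearIndependent Qb (fun (i : ι) (τ : GQ) => τ (ω i)) := by
  refine linearIndependent_of_equivariant (X := GQ) (fun (i : ι) (τ : GQ) => τ (ω i))
    (fun i σ τ => rfl) ?_
  rw [linearIndependent_iff'] at h ⊢
  intro s c hc i hi
  refine h s c ?_ i hi
  have h1 := congrFun hc 1
  simpa [Finset.sum_apply] using h1

end Fermat.Agent.S19
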