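import Fermat.Agent.S19.A.Descent
import Fermat.Agent.S19.A.RlBasic

/-!
# S19 / A6: permanence properties of `IsFunFlat` (sub-objects, quotients, products)
-/

set_option autoImplicit false

namespace Fermat.Agent.S19

section SubquotHelpers

variable {ℓ : ℕ}

/-- Pull back of functions along a map, as an algebra map. -/
noncomputable def subquotPull (ℓ : ℕ) {X Y : Type} (f : X → Y) : (Y → Qb) →ₐ[Rl ℓ] (X → Qb) :=
  AlgHom.pi (fun x => Pi.evalAlgHom (Rl ℓ) (fun _ : Y => Qb) (f x))

@[simp] theorem subquotPull_apply {X Y : Type} (f : X → Y) (h : Y → Qb) (x : X) :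
    subquotPull ℓ f h x = h (f x) := rfl

/-- The algebra of "decomposable" functions on `X × Y`. -/
noncomputable def subquotTens {X Y : Type} (H : Subalgebra (Rl ℓ) (X → Qb))
    (H' : Subalgebra (Rl ℓ) (Y → Qb)) : Subalgebra (Rl ℓ) (X × Y → Qb) :=
  H.map (subquotPull ℓ Prod.fst) ⊔ H'.map (subquotPull ℓ Prod.snd)

theorem subquotTens_fst_mem {X Y : Type} (H : Subalgebra (Rl ℓ) (X → Qb))
    (H' : Subalgebra (Rl ℓ) (Y → Qb)) {h : X → Qb} (hh : h ∈ H) :
    (fun p : X × Y => h p.1) ∈ subquotTens H H' :=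
  (le_sup_left : _ ≤ subquotTens H H') ⟨h, hh, rfl⟩

theorem subquotTens_snd_mem {X Y : Type} (H : Subalgebra (Rl ℓ) (X → Qb))
    (H' : Subalgebra (Rl ℓ) (Y → Qb)) {h : Y → Qb} (hh : h ∈ H') :
    (fun p : X × Y => h p.2) ∈ subquotTens H H' :=
  (le_sup_right : _ ≤ subquotTens H H') ⟨h, hh, rfl⟩

theorem subquotTens_mem_iff {X Y : Type} (H : Subalgebra (Rl ℓ) (X → Qb))
    (H' : Subalgebra (Rl ℓ) (Y → Qb)) (F : X × Y → Qb) :
    F ∈ subquotTens H H' ↔ ∃ (n : ℕ) (a : Fin n → X → Qb) (c : Fin n → Y → Qb),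
      (∀ i, a i ∈ H) ∧ (∀ i, c i ∈ H') ∧ ∀ x y, F (x, y) = ∑ i, a i x * c i y := by
  constructor
  · intro hF
    have hF' : F ∈ Subalgebra.toSubmodule (H.map (subquotPull ℓ Prod.fst)) *
        Subalgebra.toSubmodule (H'.map (subquotPull ℓ (Prod.snd : X × Y → Y))) := by
      rw [Subalgebra.mul_toSubmodule]; exact hF
    clear hF
    induction hF' using Submodule.mul_induction_on' with
    | mem_mul_mem m hm n hn =>
      obtain ⟨a, ha, rfl⟩ := hm
      obtain ⟨c, hc, rfl⟩ := hn
      exact ⟨1, fun _ => a, fun _ => c, fun _ => ha, fun _ => hc, fun x y => by simp⟩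
    | add x _ y _ hx hy =>
      obtain ⟨n, a, c, ha, hc, h⟩ := hx
      obtain ⟨n', a', c', ha', hc', h'⟩ := hy
      refine ⟨n + n', Fin.append a a', Fin.append c c', ?_, ?_, ?_⟩
      · intro i
        refine Fin.addCases (fun i => ?_) (fun i => ?_) i
        · rw [Fin.append_left]; exact ha i
        · rw [Fin.append_right]; exact ha' i
      · intro i
        refine Fin.addCases (fun i => ?_) (fun i => ?_) i
        · rw [Fin.append_left]; exact hc i
        · rw [Fin.append_right]; exact hc' i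
      · intro u v
        rw [Fin.sum_univ_add]
        simp only [Fin.append_left, Fin.append_right, Pi.add_apply, h, h']
  · rintro ⟨n, a, c, ha, hc, h⟩
    have : F = ∑ i, (fun p : X × Y => a i p.1) * (fun p : X × Y => c i p.2) := by
      funext p
      obtain ⟨x, y⟩ := p
      rw [h]
      simp [Finset.sum_apply]
    rw [this]
    exact Subalgebra.sum_mem _ fun i _ =>
      Subalgebra.mul_mem _ (subquotTens_fst_mem H H' (ha i)) (subquotTens_snd_mem H H' (hc i))

end SubquotHelpers

variable {ℓ : ℕ} [Fact ℓ.Prime] {G G' : Type} [AddCommGroup G] [AddCommGroup G']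
  [DistribMulAction GQ G] [DistribMulAction GQ G']

/-- Sub-objects: take `H' = {h ∘ φ | h ∈ H}` (`Subalgebra.map` of the algebra map `h ↦ h ∘ φ`). -/
theorem IsFunFlat.of_injective (φ : G' →+ G) (hφ : Function.Injective φ)
    (hequiv : ∀ (σ : GQ) x, φ (σ • x) = σ • φ x) (h : IsFunFlat ℓ G) : IsFunFlat ℓ G' := by
  obtain ⟨H, hH⟩ := h
  refine ⟨H.map (subquotPull ℓ φ), ?_, ?_, ?_, ?_, ?_⟩
  · rintro _ ⟨h, hh, rfl⟩ σ x
    simp only [AlgHom.coe_toRingHom, subquotPull_apply, hequiv]
    exact hH.equivariant h hh σ (φ x)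
  · rw [Subalgebra.map_toSubmodule]
    exact hH.fg.map _
  · intro x y hxy
    apply hφ
    apply hH.separates
    intro h hh
    exact hxy _ ⟨h, hh, rfl⟩
  · rintro _ ⟨h, hh, rfl⟩
    obtain ⟨r, hr⟩ := hH.counit h hh
    exact ⟨r, by simpa using hr⟩
  · rintro _ ⟨h, hh, rfl⟩
    obtain ⟨n, a, c, ha, hc, hac⟩ := hH.comul h hh
    refine ⟨n, fun i => subquotPull ℓ φ (a i), fun i => subquotPull ℓ φ (c i),
      fun i => ⟨a i, ha i, rfl⟩, fun i => ⟨c i, hc i, rfl⟩, ?_⟩
    intro x y
    simp only [AlgHom.coe_toRingHom, subquotPull_apply, map_add, hac]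

/-- A function invariant under `ker φ` descends along the surjection `φ`. -/
theorem subquot_descend (φ : G →+ G') (hφ : Function.Surjective φ) (f : G → Qb)
    (hf : ∀ x g, φ g = 0 → f (x + g) = f x) : ∃ f' : G' → Qb, ∀ x, f' (φ x) = f x := by
  refine ⟨fun x' => f (Function.surjInv hφ x'), fun x => ?_⟩
  have h1 : φ (Function.surjInv hφ (φ x) - x) = 0 := by
    rw [map_sub, Function.surjInv_eq hφ, sub_self]
  have := hf x _ h1
  rwa [add_sub_cancel] at this

/-- The sum of the values of `c ∈ H` over `ker φ` lies in `ℤ_(ℓ)`. -/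
theorem subquot_sum_ker [Fintype G] [DecidableEq G'] (φ : G →+ G')
    (hequiv : ∀ (σ : GQ) x, φ (σ • x) = σ • φ x) {H : Subalgebra (Rl ℓ) (G → Qb)}
    (hH : IsFunOrder ℓ G H) (c : G → Qb) (hc : c ∈ H) :
    ∃ r : Rl ℓ, ∑ g : G, (if φ g = 0 then c g else 0) = algebraMap (Rl ℓ) Qb r := by
  have hfix : ∀ σ : GQ, σ (∑ g : G, (if φ g = 0 then c g else 0)) =
      ∑ g : G, (if φ g = 0 then c g else 0) := by
    intro σ
    rw [map_sum, ← Equiv.sum_comp (MulAction.toPerm σ) (fun g => if φ g = 0 then c g else 0)]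
    refine Finset.sum_congr rfl fun g _ => ?_
    rw [MulAction.toPerm_apply, hequiv, hH.equivariant c hc, apply_ite σ, map_zero]
    simp only [smul_eq_zero_iff_eq]
  obtain ⟨q, hq⟩ := mem_range_of_fixed _ hfix
  have hint : IsIntegral (Rl ℓ) (∑ g : G, (if φ g = 0 then c g else 0)) := by
    refine IsIntegral.sum _ fun g _ => ?_
    split_ifs
    · exact (IsIntegral.of_mem_of_fg H hH.fg c hc).map
        (Pi.evalAlgHom (Rl ℓ) (fun _ : G => Qb) g)
    · exact isIntegral_zero
  rw [← hq] at hint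
  have hint' : IsIntegral (Rl ℓ) q :=
    (isIntegral_algebraMap_iff (algebraMap ℚ Qb).injective).1 hint
  obtain ⟨r, hr⟩ := IsIntegrallyClosed.isIntegral_iff.1 hint'
  refine ⟨r, ?_⟩
  rw [← hq, ← hr]
  rfl

/-- The trace along `φ` of a function in `H` lies in `H`. -/
theorem subquot_trace_mem [Fintype G] [DecidableEq G'] (φ : G →+ G')
    (hequiv : ∀ (σ : GQ) x, φ (σ • x) = σ • φ x) {H : Subalgebra (Rl ℓ) (G → Qb)}
    (hH : IsFunOrder ℓ G H) (h : G → Qb) (hh : h ∈ H) :
    (fun x => ∑ z : G, (if φ z = φ x then h z else 0)) ∈ H := by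
  obtain ⟨n, a, c, ha, hc, hac⟩ := hH.comul h hh
  choose r hr using fun i => subquot_sum_ker φ hequiv hH (c i) (hc i)
  have key : (fun x => ∑ z : G, (if φ z = φ x then h z else 0)) = ∑ i, r i • a i := by
    funext x
    rw [← Equiv.sum_comp (Equiv.addLeft x) (fun z => if φ z = φ x then h z else 0)]
    simp only [Equiv.coe_addLeft, map_add, add_eq_left, hac, Finset.sum_apply, Pi.smul_apply]
    simp only [Algebra.smul_def, ← hr, Finset.sum_mul]
    rw [Finset.sum_comm]
    refine Finset.sum_congr rfl fun g _ => ?_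
    split_ifs
    · exact Finset.sum_congr rfl fun i _ => mul_comm _ _
    · simp
  rw [key]
  exact Subalgebra.sum_mem _ fun i _ => Subalgebra.smul_mem _ (ha i) _

/-- Rewriting decomposable functions in terms of a `ℚ̄`-independent basis of the second factor. -/
theorem subquot_rewrite {X Y : Type} [MulAction GQ Y] (M₂ : Submodule (Rl ℓ) (X → Qb))
    (M₁ : Submodule (Rl ℓ) (Y → Qb)) (hfg : M₁.FG)
    (heq : ∀ h ∈ M₁, ∀ (σ : GQ) (y : Y), h (σ • y) = σ (h y)) :
    ∃ (m : ℕ) (b : Fin m → Y → Qb), (∀ j, b j ∈ M₁) ∧ LinearIndependent Qb b ∧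
      ∀ (n : ℕ) (a : Fin n → X → Qb) (c : Fin n → Y → Qb), (∀ i, a i ∈ M₂) → (∀ i, c i ∈ M₁) →
        ∃ u : Fin m → X → Qb, (∀ j, u j ∈ M₂) ∧
          ∀ x y, ∑ i, a i x * c i y = ∑ j, u j x * b j y := by
  obtain ⟨m, B, hB⟩ := exists_basis_of_fg M₁ hfg
  refine ⟨m, fun j => ((B j : M₁) : Y → Qb), fun j => (B j).2, ?_, ?_⟩
  · exact linearIndependent_of_equivariant _ (fun j σ y => heq _ (B j).2 σ y) hB
  · intro n a c ha hc
    refine ⟨fun j => ∑ i, B.repr ⟨c i, hc i⟩ j • a i,
      fun j => Submodule.sum_mem _ fun i _ => Submodule.smul_mem _ _ (ha i), ?_⟩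
    intro x y
    have hci : ∀ i, c i y = ∑ j, algebraMap (Rl ℓ) Qb (B.repr ⟨c i, hc i⟩ j) *
        ((B j : M₁) : Y → Qb) y := by
      intro i
      have h1 := congrArg (fun z : M₁ => (z : Y → Qb) y) (B.sum_repr ⟨c i, hc i⟩)
      simp only [Submodule.coe_sum, Submodule.coe_smul, Finset.sum_apply, Pi.smul_apply] at h1
      simp only [Algebra.smul_def] at h1
      exact h1.symm
    simp only [hci, Finset.sum_apply, Pi.smul_apply]
    simp only [Algebra.smul_def, Finset.mul_sum, Finset.sum_mul]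
    rw [Finset.sum_comm]
    refine Finset.sum_congr rfl fun j _ => Finset.sum_congr rfl fun i _ => ?_
    ring

/-- Comparing coefficients with respect to an independent family. -/
theorem subquot_coeff_eq {Y : Type} {m : ℕ} {b : Fin m → Y → Qb} (hb : LinearIndependent Qb b)
    (u v : Fin m → Qb) (h : ∀ y, ∑ j, u j * b j y = ∑ j, v j * b j y) (j : Fin m) :
    u j = v j := by
  have h0 : ∑ j, (u j - v j) • b j = 0 := by
    funext y
    simp only [Finset.sum_apply, Pi.smul_apply, smul_eq_mul, sub_mul, Finset.sum_sub_distrib,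
      h y, sub_self, Pi.zero_apply]
  exact sub_eq_zero.1 (Fintype.linearIndependent_iff.1 hb _ h0 j)

/-- Quotients: take `H' = {h' | h' ∘ φ ∈ H}` (`Subalgebra.comap`).  `fg`: submodule of a f.g. module
over the noetherian ring `ℤ_(ℓ)`.  `comul`: choose an `R`-basis `h_i` of `H` adapted to the saturated
submodule `H'' = {h ∈ H | h invariant under ker φ}` (or: use that `H''` is a direct summand since
`H / H''` is torsion free) and compare coefficients.  `separates`: every equivariant function on `G`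
lies in `H[1/ℓ]` (dimension count with A1), apply this to the coefficients of
`∏_{g ∈ ker φ} (T - h (x + g))`. -/
theorem IsFunFlat.of_surjective [Finite G] (φ : G →+ G') (hφ : Function.Surjective φ)
    (hequiv : ∀ (σ : GQ) x, φ (σ • x) = σ • φ x) (h : IsFunFlat ℓ G) : IsFunFlat ℓ G' := by
  classical
  obtain ⟨H, hH⟩ := h
  have := Fintype.ofFinite G
  have hmem : ∀ f' : G' → Qb, f' ∈ H.comap (subquotPull ℓ φ) ↔ (fun x => f' (φ x)) ∈ H :=
    fun f' => Iff.rfl
  have hEq : ∀ h' ∈ H.comap (subquotPull ℓ φ), ∀ (σ : GQ) (x' : G'), h' (σ • x') = σ (h' x') := by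
    intro h' hh' σ x'
    obtain ⟨x, rfl⟩ := hφ x'
    rw [← hequiv]
    exact hH.equivariant _ hh' σ x
  have hFG : (Subalgebra.toSubmodule (H.comap (subquotPull ℓ φ))).FG := by
    have hinj : Function.Injective (subquotPull ℓ φ).toLinearMap := by
      intro f g hfg
      funext x'
      obtain ⟨x, rfl⟩ := hφ x'
      exact congrFun hfg x
    apply Submodule.fg_of_fg_map_injective _ hinj
    have hN : IsNoetherian (Rl ℓ) (Subalgebra.toSubmodule H) :=
      isNoetherian_of_fg_of_noetherian _ hH.fg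
    refine isNoetherian_submodule.1 hN _ ?_
    rintro _ ⟨f', hf', rfl⟩
    exact hf'
  refine ⟨H.comap (subquotPull ℓ φ), hEq, hFG, ?_, ?_, ?_⟩
  · -- separates
    intro x' y' hxy
    obtain ⟨x, rfl⟩ := hφ x'
    -- the evaluations are linearly independent
    let ev : G → (H →* Qb) := fun z =>
      { toFun := fun h => (h : G → Qb) z
        map_one' := rfl
        map_mul' := fun _ _ => rfl }
    have hev : Function.Injective ev := by
      intro z w hzw
      apply hH.separates
      intro h hh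
      exact congrArg (fun e : H →* Qb => e ⟨h, hh⟩) hzw
    have hli : LinearIndependent Qb (fun z : G => (ev z : H → Qb)) :=
      (linearIndependent_monoidHom H Qb).comp ev hev
    have hrel : ∑ z : G, ((if φ z = φ x then (1 : Qb) else 0) - (if φ z = y' then 1 else 0)) •
        (ev z : H → Qb) = 0 := by
      funext h
      obtain ⟨y, rfl⟩ := hφ y'
      have h1 := hxy (fun w' => ∑ z : G, (if φ z = w' then (h : G → Qb) z else 0))
        (subquot_trace_mem φ hequiv hH h h.2)
      simp only [Finset.sum_apply, Pi.smul_apply, smul_eq_mul, sub_mul, ite_mul, one_mul, zero_mul,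
        Finset.sum_sub_distrib, Pi.zero_apply]
      exact sub_eq_zero.2 h1
    have h2 := Fintype.linearIndependent_iff.1 hli _ hrel x
    by_contra hne
    rw [if_pos rfl, if_neg hne] at h2
    simp at h2
  · -- counit
    intro h' hh'
    obtain ⟨r, hr⟩ := hH.counit _ hh'
    refine ⟨r, ?_⟩
    rw [← hr]
    simp
  · -- comul
    intro h' hh'
    obtain ⟨n, a, c, ha, hc, hac⟩ := hH.comul _ hh'
    simp only [AlgHom.coe_toRingHom, subquotPull_apply] at hac
    obtain ⟨m, b, hb, hbi, rew⟩ := subquot_rewrite (X := G) (Subalgebra.toSubmodule H)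
      (Subalgebra.toSubmodule H) hH.fg hH.equivariant
    obtain ⟨u, hu, hub⟩ := rew n a c ha hc
    -- the `u j` are invariant
    have huinv : ∀ j x g, φ g = 0 → u j (x + g) = u j x := by
      intro j x g hg
      refine subquot_coeff_eq hbi (fun j => u j (x + g)) (fun j => u j x) (fun y => ?_) j
      rw [← hub, ← hub, ← hac, ← hac]
      simp [hg]
    choose u' hu' using fun j => subquot_descend φ hφ (u j) (huinv j)
    have hu'mem : ∀ j, u' j ∈ H.comap (subquotPull ℓ φ) := by
      intro j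
      rw [hmem]
      have : (fun x => u' j (φ x)) = u j := funext (hu' j)
      rw [this]
      exact hu j
    obtain ⟨m', e, he, hei, rew'⟩ := subquot_rewrite (X := G) (Subalgebra.toSubmodule H)
      (Subalgebra.toSubmodule (H.comap (subquotPull ℓ φ))) hFG hEq
    obtain ⟨w, hw, hwe⟩ := rew' m b u' hb hu'mem
    have hmain : ∀ x y, h' (φ (x + y)) = ∑ k, w k y * e k (φ x) := by
      intro x y
      rw [hac, hub, ← hwe]
      exact Finset.sum_congr rfl fun j _ => by rw [hu', mul_comm]
    have hwinv : ∀ k y g, φ g = 0 → w k (y + g) = w k y := by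
      intro k y g hg
      refine subquot_coeff_eq hei (fun k => w k (y + g)) (fun k => w k y) (fun x' => ?_) k
      obtain ⟨x, rfl⟩ := hφ x'
      rw [← hmain, ← hmain]
      simp [hg]
    choose w' hw' using fun k => subquot_descend φ hφ (w k) (hwinv k)
    have hw'mem : ∀ k, w' k ∈ H.comap (subquotPull ℓ φ) := by
      intro k
      rw [hmem]
      have : (fun x => w' k (φ x)) = w k := funext (hw' k)
      rw [this]
      exact hw k
    refine ⟨m', e, w', he, hw'mem, ?_⟩
    intro x' y'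
    obtain ⟨x, rfl⟩ := hφ x'
    obtain ⟨y, rfl⟩ := hφ y'
    rw [← map_add, hmain]
    exact Finset.sum_congr rfl fun k _ => by rw [hw', mul_comm]

/-- Products: `H = ` the subalgebra generated by the `h ∘ fst`, `h' ∘ snd`. -/
theorem IsFunFlat.prod (h : IsFunFlat ℓ G) (h' : IsFunFlat ℓ G') : IsFunFlat ℓ (G × G') := by
  obtain ⟨H, hH⟩ := h
  obtain ⟨H', hH'⟩ := h'
  refine ⟨subquotTens H H', ?_, ?_, ?_, ?_, ?_⟩
  · intro F hF σ p
    obtain ⟨n, a, c, ha, hc, hF⟩ := (subquotTens_mem_iff H H' F).1 hF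
    obtain ⟨x, y⟩ := p
    rw [Prod.smul_mk, hF, hF, map_sum]
    refine Finset.sum_congr rfl fun i _ => ?_
    rw [map_mul, hH.equivariant _ (ha i), hH'.equivariant _ (hc i)]
  · unfold subquotTens
    rw [← Subalgebra.mul_toSubmodule, Subalgebra.map_toSubmodule, Subalgebra.map_toSubmodule]
    exact (hH.fg.map _).mul (hH'.fg.map _)
  · rintro ⟨x, x'⟩ ⟨y, y'⟩ hxy
    ext
    · exact hH.separates _ _ fun h hh => hxy _ (subquotTens_fst_mem H H' hh)
    · exact hH'.separates _ _ fun h hh => hxy _ (subquotTens_snd_mem H H' hh)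
  · intro F hF
    obtain ⟨n, a, c, ha, hc, hF⟩ := (subquotTens_mem_iff H H' F).1 hF
    choose r hr using fun i => hH.counit _ (ha i)
    choose r' hr' using fun i => hH'.counit _ (hc i)
    refine ⟨∑ i, r i * r' i, ?_⟩
    rw [show (0 : G × G') = (0, 0) from rfl, hF, map_sum]
    simp [hr, hr']
  · intro F hF
    obtain ⟨n, a, c, ha, hc, hF⟩ := (subquotTens_mem_iff H H' F).1 hF
    refine (subquotTens_mem_iff (subquotTens H H') (subquotTens H H')
      (fun p => F (p.1 + p.2))).1 ?_
    have key : (fun p : (G × G') × (G × G') => F (p.1 + p.2)) =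
        ∑ i, (fun p : (G × G') × (G × G') => a i (p.1.1 + p.2.1)) *
          (fun p : (G × G') × (G × G') => c i (p.1.2 + p.2.2)) := by
      funext p
      rw [show p.1 + p.2 = (p.1.1 + p.2.1, p.1.2 + p.2.2) from rfl, hF]
      simp [Finset.sum_apply]
    rw [key]
    refine Subalgebra.sum_mem _ fun i _ => Subalgebra.mul_mem _ ?_ ?_
    · obtain ⟨m, a', c', ha', hc', h⟩ := hH.comul _ (ha i)
      refine (subquotTens_mem_iff _ _ _).2 ⟨m, fun j q => a' j q.1, fun j q => c' j q.1,
        fun j => subquotTens_fst_mem H H' (ha' j), fun j => subquotTens_fst_mem H H' (hc' j), ?_⟩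
      intro x y
      exact h _ _
    · obtain ⟨m, a', c', ha', hc', h⟩ := hH'.comul _ (hc i)
      refine (subquotTens_mem_iff _ _ _).2 ⟨m, fun j q => a' j q.2, fun j q => c' j q.2,
        fun j => subquotTens_snd_mem H H' (ha' j), fun j => subquotTens_snd_mem H H' (hc' j), ?_⟩
      intro x y
      exact h _ _

/-- Transport along an equivariant isomorphism. -/
theorem IsFunFlat.of_addEquiv (φ : G' ≃+ G) (hequiv : ∀ (σ : GQ) x, φ (σ • x) = σ • φ x)
    (h : IsFunFlat ℓ G) : IsFunFlat ℓ G' :=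
  h.of_injective φ.toAddMonoidHom φ.injective hequiv

end Fermat.Agent.S19
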